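import Mathlib
import Fermat.Agent.ES.Basic

/-!
# S16, theta route (backup for the lower bound): basic definitions

Goal of the sub-project `Fermat/Agent/S16/Theta/*`:
`∃ Θ : ModularForm (Gamma0 p) 2`, `a_0(Θ) = 1`, `a_m(Θ) ∈ 2ℤ` for `m ≥ 1` (`p` an odd prime).

`Θ` is the theta series of an even quaternary lattice `(ℤ⁴, Q)` with Gram matrix `A`,
`det A = p²`, `B = p A⁻¹` even.  `Qs(w) = ½ wᵀ B w`.
The `p + 1` functions `Θ_∞(z) = ∑ₓ e(z Q(x))`, `Θ_j(z) = -(1/p) ∑_w e((z+j) Qs(w)/p)` are permuted by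
`S` and `T` like `ℙ¹(𝔽_p)`; hence `Θ_∞` is invariant under the stabiliser `Γ₀(p)` of `∞`.
-/

set_option autoImplicit false

namespace Fermat.Agent.S16.Theta

open Complex UpperHalfPlane Matrix
open scoped Real MatrixGroups ModularForm

/-- The lattice `ℤ⁴`. -/
abbrev V := Fin 4 → ℤ

/-- `e(x) = exp(2πix)`. -/
noncomputable def ee (x : ℂ) : ℂ := cexp (2 * π * Complex.I * x)

/-- The standard lift of a residue vector. -/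
def lift {p : ℕ} (δ : Fin 4 → ZMod p) : V := fun i => ((δ i).val : ℤ)

/-- Abstract data of an even quaternary lattice of level `p` and determinant `p²` together with the
two analytic/arithmetic inputs (theta inversion, Gauss sum). -/
structure Data (p : ℕ) [Fact p.Prime] where
  A : Matrix (Fin 4) (Fin 4) ℤ
  B : Matrix (Fin 4) (Fin 4) ℤ
  Q : V → ℤ
  Qs : V → ℤ
  A_symm : Aᵀ = A
  B_symm : Bᵀ = B
  A_mul_B : A * B = (p : ℤ) • (1 : Matrix (Fin 4) (Fin 4) ℤ)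
  two_Q : ∀ x, 2 * Q x = x ⬝ᵥ (A *ᵥ x)
  two_Qs : ∀ x, 2 * Qs x = x ⬝ᵥ (B *ᵥ x)
  Q_pos : ∀ x, x ≠ 0 → 0 < Q x
  Qs_pos : ∀ x, x ≠ 0 → 0 < Qs x
  summable_Q : ∀ t : ℝ, 0 < t → Summable fun x : V => Real.exp (-t * (Q x : ℝ))
  summable_Qs : ∀ t : ℝ, 0 < t → Summable fun x : V => Real.exp (-t * (Qs x : ℝ))
  /-- theta inversion with a rational shift `δ / p` -/
  inv : ∀ z : ℂ, 0 < z.im → ∀ δ : V,
    ∑' v : V, ee (-((Qs (δ + (p : ℤ) • v) : ℤ) : ℂ) / ((p : ℂ) * z)) =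
      -(z ^ 2 / (p : ℂ) ^ 3) *
        ∑' x : V, ee (z * ((Q x : ℤ) : ℂ) / (p : ℂ) ^ 2 + ((x ⬝ᵥ δ : ℤ) : ℂ) / (p : ℂ))
  /-- the Gauss sum of the (degenerate) quadratic form `Qs` mod `p` -/
  gauss : ∀ j : ℤ, ¬ (p : ℤ) ∣ j →
    ∑ δ : Fin 4 → ZMod p, ee (((j * Qs (lift δ) : ℤ) : ℂ) / (p : ℂ)) = -(p : ℂ) ^ 3

variable {p : ℕ} [Fact p.Prime] (D : Data p)

/-- `Θ_∞(z) = ∑ₓ e(z Q(x))`. -/
noncomputable def thetaInf (z : ℍ) : ℂ := ∑' x : V, ee ((z : ℂ) * ((D.Q x : ℤ) : ℂ))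

/-- `Θ_j(z) = -(1/p) ∑_w e((z + j) Qs(w) / p)`. -/
noncomputable def thetaFin (j : ℤ) (z : ℍ) : ℂ :=
  -(1 / (p : ℂ)) * ∑' w : V, ee (((z : ℂ) + (j : ℂ)) * ((D.Qs w : ℤ) : ℂ) / (p : ℂ))

/-! ### The explicit lattice (norm form of a maximal order of the quaternion algebra ramified at
`p, ∞`), parameters `k r s` with `(4k-1) s = r² + p`. -/

/-- `Q(x) = x₀²+x₀x₁+k x₁²+r x₁x₂+s x₂²+p x₂x₃+pk x₃²`. -/
def QE (p k r s : ℤ) (x : V) : ℤ :=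
  x 0 ^ 2 + x 0 * x 1 + k * x 1 ^ 2 + r * x 1 * x 2 + s * x 2 ^ 2 + p * x 2 * x 3 + p * k * x 3 ^ 2

/-- the `p`-scaled dual form. -/
def QsE (k r s : ℤ) (w : V) : ℤ :=
  k * s * w 0 ^ 2 - (s + r ^ 2) * w 0 * w 1 + (s + r ^ 2) * w 1 ^ 2 + 2 * k * r * w 0 * w 2
    - 4 * k * r * w 1 * w 2 + k * (4 * k - 1) * w 2 ^ 2 - r * w 0 * w 3 + 2 * r * w 1 * w 3
    - (4 * k - 1) * w 2 * w 3 + w 3 ^ 2

/-- Gram matrix of `QE`. -/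
def AE (p k r s : ℤ) : Matrix (Fin 4) (Fin 4) ℤ :=
  !![2, 1, 0, 0; 1, 2 * k, r, 0; 0, r, 2 * s, p; 0, 0, p, 2 * p * k]

/-- Gram matrix of `QsE`. -/
def BE (k r s : ℤ) : Matrix (Fin 4) (Fin 4) ℤ :=
  !![2 * k * s, -(s + r ^ 2), 2 * k * r, -r;
     -(s + r ^ 2), 2 * (s + r ^ 2), -4 * k * r, 2 * r;
     2 * k * r, -4 * k * r, 2 * k * (4 * k - 1), -(4 * k - 1);
     -r, 2 * r, -(4 * k - 1), 2]

end Fermat.Agent.S16.Theta
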