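import Fermat.Agent.S16.Theta.Defs

/-!
# The Gauss sum of `QsE` mod `p`
`4q·QsE(w) = p(q w₀² + (2w₁-w₀)²) + N₂² + q N₃²`, `q = 4k-1`, `N₂ = q w₂ - 2 r w₁ + r w₀`, `N₃ = 2 w₃ - N₂`.
-/

set_option autoImplicit false

namespace Fermat.Agent.S16.Theta

open Complex

/-- the complex-valued quadratic character -/
noncomputable def gaussChi (p : ℕ) [Fact p.Prime] : MulChar (ZMod p) ℂ :=
  (quadraticChar (ZMod p)).ringHomComp (Int.castRingHom ℂ)

theorem gauss_chi_apply (p : ℕ) [Fact p.Prime] (a : ZMod p) :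
    gaussChi p a = ((quadraticChar (ZMod p) a : ℤ) : ℂ) := rfl

theorem gauss_quad_sum (p : ℕ) [Fact p.Prime] (hp : p ≠ 2) (a : ZMod p) (ha : a ≠ 0) :
    ∑ x : ZMod p, ZMod.stdAddChar (a * x ^ 2) =
      gaussChi p a * gaussSum (gaussChi p) (ZMod.stdAddChar (N := p)) := by
  classical
  have hF : ringChar (ZMod p) ≠ 2 := (ZMod.ringChar_zmod_n p).substr hp
  have h1 : ∑ x : ZMod p, ZMod.stdAddChar (a * x ^ 2) =
      ∑ t : ZMod p, ∑ x ∈ Finset.univ.filter (fun x : ZMod p => x ^ 2 = t),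
        ZMod.stdAddChar (a * x ^ 2) :=
    (Finset.sum_fiberwise Finset.univ (fun x : ZMod p => x ^ 2) _).symm
  have h2 : ∀ t : ZMod p, ∑ x ∈ Finset.univ.filter (fun x : ZMod p => x ^ 2 = t),
        ZMod.stdAddChar (a * x ^ 2) = (gaussChi p t + 1) * ZMod.stdAddChar (a * t) := by
    intro t
    have : ∀ x ∈ Finset.univ.filter (fun x : ZMod p => x ^ 2 = t),
        ZMod.stdAddChar (a * x ^ 2) = ZMod.stdAddChar (a * t) := by
      intro x hx
      rw [(Finset.mem_filter.mp hx).2]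
    rw [Finset.sum_congr rfl this, Finset.sum_const, nsmul_eq_mul]
    congr 1
    have h3 := quadraticChar_card_sqrts hF t
    have h4 : ({x : ZMod p | x ^ 2 = t}.toFinset) = Finset.univ.filter (fun x : ZMod p => x ^ 2 = t) := by
      ext x; simp
    rw [h4] at h3
    rw [gauss_chi_apply]
    have := congrArg (fun n : ℤ => (n : ℂ)) h3
    simpa using this
  rw [h1, Finset.sum_congr rfl (fun t _ => h2 t)]
  simp only [add_mul, one_mul, Finset.sum_add_distrib]
  have h5 : ∑ t : ZMod p, ZMod.stdAddChar (a * t) = 0 := by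
    have := AddChar.sum_mulShift (R := ZMod p) (R' := ℂ) a (ZMod.isPrimitive_stdAddChar p)
    simp only [ha, if_false] at this
    simpa [mul_comm] using this
  rw [h5, add_zero]
  have hu : IsUnit a := isUnit_iff_ne_zero.mpr ha
  obtain ⟨u, rfl⟩ := hu
  have h6 := gaussSum_mulShift (gaussChi p) (ZMod.stdAddChar (N := p)) u
  have h7 : gaussChi p (u : ZMod p) * gaussChi p (u : ZMod p) = 1 := by
    rw [gauss_chi_apply]
    have := quadraticChar_sq_one (F := ZMod p) ha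
    have h8 := congrArg (fun n : ℤ => (n : ℂ)) this
    simp only [Int.cast_pow, Int.cast_one] at h8
    rw [← sq]; exact h8
  have h9 : ∑ t : ZMod p, gaussChi p t * ZMod.stdAddChar ((u : ZMod p) * t) =
      gaussSum (gaussChi p) (AddChar.mulShift (ZMod.stdAddChar (N := p)) (u : ZMod p)) := by
    simp [gaussSum, AddChar.mulShift_apply]
  rw [h9, ← h6, ← mul_assoc, h7, one_mul]

theorem gauss_ee_eq (p : ℕ) [Fact p.Prime] (n : ℤ) :
    ee ((n : ℂ) / (p : ℂ)) = ZMod.stdAddChar ((n : ZMod p)) := by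
  rw [ZMod.stdAddChar_coe, ee]
  congr 1
  ring

theorem gauss_cast_lift (p : ℕ) [Fact p.Prime] (δ : Fin 4 → ZMod p) (i : Fin 4) :
    ((lift δ i : ℤ) : ZMod p) = δ i := by
  simp [lift]

/-- the linear change of variables -/
def gaussMap (p : ℕ) (q r : ZMod p) (δ : Fin 4 → ZMod p) : Fin 4 → ZMod p :=
  ![δ 0, δ 1, q * δ 2 - 2 * r * δ 1 + r * δ 0, 2 * δ 3 - (q * δ 2 - 2 * r * δ 1 + r * δ 0)]

theorem gaussMap_bijective (p : ℕ) [Fact p.Prime] (q r : ZMod p) (hq : q ≠ 0)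
    (h2 : (2 : ZMod p) ≠ 0) : Function.Bijective (gaussMap p q r) := by
  rw [← Finite.injective_iff_bijective]
  intro δ δ' h
  have h0 : δ 0 = δ' 0 := by simpa [gaussMap] using congrFun h 0
  have h1 : δ 1 = δ' 1 := by simpa [gaussMap] using congrFun h 1
  have h2' : q * δ 2 - 2 * r * δ 1 + r * δ 0 = q * δ' 2 - 2 * r * δ' 1 + r * δ' 0 := by
    simpa [gaussMap] using congrFun h 2
  have h3' : 2 * δ 3 - (q * δ 2 - 2 * r * δ 1 + r * δ 0) =
      2 * δ' 3 - (q * δ' 2 - 2 * r * δ' 1 + r * δ' 0) := by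
    simpa [gaussMap] using congrFun h 3
  have h2'' : δ 2 = δ' 2 := by
    apply mul_left_cancel₀ hq
    rw [h0, h1] at h2'
    linear_combination h2'
  have h3'' : δ 3 = δ' 3 := by
    apply mul_left_cancel₀ h2
    linear_combination h3' + h2'
  funext i
  fin_cases i
  · exact h0
  · exact h1
  · exact h2''
  · exact h3''

theorem gauss_explicit (p : ℕ) [Fact p.Prime] (hp : p ≠ 2) (k r s : ℤ)
    (h : (4 * k - 1) * s = r ^ 2 + p) (hleg : legendreSym p (-(4 * k - 1)) = -1)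
    (j : ℤ) (hj : ¬ (p : ℤ) ∣ j) :
    ∑ δ : Fin 4 → ZMod p, ee (((j * QsE k r s (lift δ) : ℤ) : ℂ) / (p : ℂ)) = -(p : ℂ) ^ 3 := by
  classical
  have hF : ringChar (ZMod p) ≠ 2 := (ZMod.ringChar_zmod_n p).substr hp
  set q : ZMod p := ((4 * k - 1 : ℤ) : ZMod p) with hqdef
  have hχq : quadraticChar (ZMod p) (-q) = -1 := by
    have := hleg
    rw [legendreSym] at this
    simpa [hqdef] using this
  have hq : q ≠ 0 := by
    intro h0
    rw [h0] at hχq
    simp at hχq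
  have h2 : (2 : ZMod p) ≠ 0 := by
    intro h0
    have : ((2 : ℕ) : ZMod p) = 0 := by exact_mod_cast h0
    rw [ZMod.natCast_eq_zero_iff] at this
    have hp' := (Nat.prime_dvd_prime_iff_eq (Fact.out : p.Prime) Nat.prime_two).mp this
    exact hp hp'
  have hj' : (j : ZMod p) ≠ 0 := by
    intro h0
    exact hj ((ZMod.intCast_zmod_eq_zero_iff_dvd j p).mp h0)
  have h4 : (4 : ZMod p) ≠ 0 := by
    have : (4 : ZMod p) = 2 * 2 := by norm_num
    rw [this]; exact mul_ne_zero h2 h2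
  set c : ZMod p := (j : ZMod p) / (4 * q) with hc
  have hc0 : c ≠ 0 := div_ne_zero hj' (mul_ne_zero h4 hq)
  -- the key identity mod p
  have hkey : ∀ δ : Fin 4 → ZMod p, ((j * QsE k r s (lift δ) : ℤ) : ZMod p) =
      c * (gaussMap p q (r : ZMod p) δ 2) ^ 2 + c * q * (gaussMap p q (r : ZMod p) δ 3) ^ 2 := by
    intro δ
    have hid : 4 * (4 * k - 1) * QsE k r s (lift δ) =
        p * ((4 * k - 1) * (lift δ 0) ^ 2 + (2 * lift δ 1 - lift δ 0) ^ 2) +
        ((4 * k - 1) * lift δ 2 - 2 * r * lift δ 1 + r * lift δ 0) ^ 2 +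
        (4 * k - 1) * (2 * lift δ 3 - ((4 * k - 1) * lift δ 2 - 2 * r * lift δ 1 + r * lift δ 0)) ^ 2 := by
      simp only [QsE]
      linear_combination ((4 * k) * (lift δ 0) ^ 2 - 4 * (lift δ 0) * (lift δ 1) + 4 * (lift δ 1) ^ 2) * h
    have hid' := congrArg (fun n : ℤ => (n : ZMod p)) hid
    simp only [Int.cast_mul, Int.cast_add, Int.cast_sub, Int.cast_pow, gauss_cast_lift,
      Int.cast_natCast, ZMod.natCast_self, zero_mul, zero_add, Int.cast_ofNat, Int.cast_one] at hid'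
    have hq' : q = 4 * (k : ZMod p) - 1 := by simp [hqdef]
    rw [← hq'] at hid'
    have : gaussMap p q (r : ZMod p) δ 2 = q * δ 2 - 2 * r * δ 1 + r * δ 0 := by simp [gaussMap]
    rw [this]
    have : gaussMap p q (r : ZMod p) δ 3 = 2 * δ 3 - (q * δ 2 - 2 * r * δ 1 + r * δ 0) := by
      simp [gaussMap]
    rw [this, Int.cast_mul]
    have hjc : (j : ZMod p) = c * (4 * q) := by
      rw [hc, div_mul_cancel₀ _ (mul_ne_zero h4 hq)]
    rw [hjc]
    linear_combination c * hid'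
  -- rewrite the sum
  have hsum : ∑ δ : Fin 4 → ZMod p, ee (((j * QsE k r s (lift δ) : ℤ) : ℂ) / (p : ℂ)) =
      ∑ y : Fin 4 → ZMod p, ZMod.stdAddChar (c * (y 2) ^ 2 + c * q * (y 3) ^ 2) := by
    refine Fintype.sum_bijective _ (gaussMap_bijective p q (r : ZMod p) hq h2) _ _ (fun δ => ?_)
    rw [gauss_ee_eq, hkey]
  rw [hsum]
  let g : Fin 4 → ZMod p → ℂ :=
    ![fun _ => 1, fun _ => 1, fun y => ZMod.stdAddChar (c * y ^ 2),
      fun y => ZMod.stdAddChar (c * q * y ^ 2)]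
  have hprod : ∑ y : Fin 4 → ZMod p, ZMod.stdAddChar (c * (y 2) ^ 2 + c * q * (y 3) ^ 2) =
      ∏ i : Fin 4, ∑ y : ZMod p, g i y := by
    rw [Finset.prod_univ_sum, Fintype.piFinset_univ]
    refine Finset.sum_congr rfl (fun y _ => ?_)
    rw [Fin.prod_univ_four, AddChar.map_add_eq_mul]
    simp [g]
  rw [hprod, Fin.prod_univ_four]
  have hg0 : ∑ y : ZMod p, g 0 y = p := by simp [g]
  have hg1 : ∑ y : ZMod p, g 1 y = p := by simp [g]
  have hg2 : ∑ y : ZMod p, g 2 y =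
      gaussChi p c * gaussSum (gaussChi p) (ZMod.stdAddChar (N := p)) := by
    rw [← gauss_quad_sum p hp c hc0]; simp [g]
  have hg3 : ∑ y : ZMod p, g 3 y =
      gaussChi p (c * q) * gaussSum (gaussChi p) (ZMod.stdAddChar (N := p)) := by
    rw [← gauss_quad_sum p hp (c * q) (mul_ne_zero hc0 hq)]; simp [g]
  rw [hg0, hg1, hg2, hg3]
  have hχ1 : gaussChi p ≠ 1 := by
    intro h1
    have := congrArg (fun χ : MulChar (ZMod p) ℂ => χ (-q)) h1
    simp only [gauss_chi_apply, hχq] at this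
    rw [MulChar.one_apply (isUnit_iff_ne_zero.mpr (neg_ne_zero.mpr hq))] at this
    norm_num at this
  have hχ2 : (gaussChi p).IsQuadratic :=
    (quadraticChar_isQuadratic (ZMod p)).comp _
  have hsq := gaussSum_sq hχ1 hχ2 (ZMod.isPrimitive_stdAddChar p)
  rw [ZMod.card] at hsq
  have hcc : gaussChi p c * gaussChi p c = 1 := by
    rw [gauss_chi_apply]
    have := quadraticChar_sq_one (F := ZMod p) hc0
    have h8 := congrArg (fun n : ℤ => (n : ℂ)) this
    simp only [Int.cast_pow, Int.cast_one] at h8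
    rw [← sq]; exact h8
  have hm : gaussChi p q * gaussChi p (-1) = -1 := by
    rw [← map_mul, mul_neg_one, gauss_chi_apply, hχq]; simp
  rw [map_mul]
  linear_combination (p : ℂ) ^ 2 * gaussChi p c * gaussChi p c * gaussChi p q * hsq +
    (p : ℂ) ^ 3 * gaussChi p q * gaussChi p (-1) * hcc + (p : ℂ) ^ 3 * hm

end Fermat.Agent.S16.Theta
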