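import Mathlib

/-!
# Poisson summation for a quaternary Gaussian in triangular ("chain") coordinates

Iterated one-dimensional Poisson summation (`Complex.tsum_exp_neg_quadratic`), organised as an
abstract induction step on "Poisson pairs" `IsPP`.
-/

set_option autoImplicit false

namespace Fermat.Agent.S16.Theta

open Complex
open scoped Real

/-- 1-D summability -/
theorem gauss1_summable {b : ℝ} (hb : 0 < b) (s : ℝ) :
    Summable fun n : ℤ => Real.exp (-b * ((n : ℝ) + s) ^ 2) := by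
  have h := (summable_jacobiTheta₂_term_iff ((b * s / π : ℝ) * I) ((b / π : ℝ) * I)).mpr
    (by simp; positivity)
  have h2 := h.norm
  simp_rw [norm_jacobiTheta₂_term] at h2
  have h3 := h2.mul_left (Real.exp (-b * s ^ 2))
  refine h3.congr (fun n => ?_)
  rw [← Real.exp_add]
  congr 1
  have hpi : (π : ℝ) ≠ 0 := Real.pi_ne_zero
  simp
  field_simp
  ring

theorem gauss1_bound {b : ℝ} (hb : 0 < b) :
    ∃ K : ℝ, ∀ s : ℝ, ∑' n : ℤ, Real.exp (-b * ((n : ℝ) + s) ^ 2) ≤ K := by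
  refine ⟨2 * ∑' n : ℤ, Real.exp (-b * ((n : ℝ) + 0) ^ 2), fun s => ?_⟩
  have e1 : ∑' n : ℤ, Real.exp (-b * ((n : ℝ) + s) ^ 2) =
      ∑' n : ℤ, Real.exp (-b * ((n : ℝ) + Int.fract s) ^ 2) := by
    rw [← (Equiv.addRight ⌊s⌋).tsum_eq (fun n : ℤ => Real.exp (-b * ((n : ℝ) + Int.fract s) ^ 2))]
    refine tsum_congr fun n => ?_
    simp only [Equiv.coe_addRight, Int.cast_add]
    have := Int.floor_add_fract s
    rw [show (n : ℝ) + s = (n : ℝ) + ⌊s⌋ + Int.fract s by linarith]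
  have e2 : ∑' n : ℤ, Real.exp (-b * ((n : ℝ) + 1) ^ 2) =
      ∑' n : ℤ, Real.exp (-b * ((n : ℝ) + 0) ^ 2) := by
    rw [← (Equiv.addRight (1 : ℤ)).tsum_eq (fun n : ℤ => Real.exp (-b * ((n : ℝ) + 0) ^ 2))]
    refine tsum_congr fun n => ?_
    simp
  rw [e1, two_mul]
  nth_rewrite 2 [← e2]
  rw [← (gauss1_summable hb 0).tsum_add (gauss1_summable hb 1)]
  refine (gauss1_summable hb _).tsum_le_tsum (fun n => ?_)
    ((gauss1_summable hb 0).add (gauss1_summable hb 1))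
  have hf0 := Int.fract_nonneg s
  have hf1 := (Int.fract_lt_one s).le
  set f := Int.fract s
  rcases le_or_gt 0 n with hn | hn
  · have hn' : (0 : ℝ) ≤ n := by exact_mod_cast hn
    have : Real.exp (-b * ((n : ℝ) + f) ^ 2) ≤ Real.exp (-b * ((n : ℝ) + 0) ^ 2) := by
      apply Real.exp_le_exp.mpr
      nlinarith [mul_nonneg hn' hf0, mul_nonneg hb.le (mul_nonneg hn' hf0), sq_nonneg f,
        mul_nonneg hb.le (sq_nonneg f)]
    have h2 := Real.exp_pos (-b * ((n : ℝ) + 1) ^ 2)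
    linarith
  · have hn' : (n : ℝ) + 1 ≤ 0 := by exact_mod_cast hn
    have : Real.exp (-b * ((n : ℝ) + f) ^ 2) ≤ Real.exp (-b * ((n : ℝ) + 1) ^ 2) := by
      apply Real.exp_le_exp.mpr
      have h3 : ((n : ℝ) + 1) ^ 2 ≤ ((n : ℝ) + f) ^ 2 := by nlinarith
      nlinarith
    have h2 := Real.exp_pos (-b * ((n : ℝ) + 0) ^ 2)
    linarith

/-- 1-D Poisson summation with a shift `s` and a character `v`. -/
theorem poisson1 {w : ℂ} (hw : 0 < w.re) {a : ℝ} (ha : 0 < a) (s v : ℝ) :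
    ∑' n : ℤ, cexp (-π * w * a * ((n : ℂ) + s) ^ 2 + 2 * π * I * v * n) =
      1 / (w * a) ^ (1 / 2 : ℂ) *
        ∑' m : ℤ, cexp (-π / (w * a) * ((m : ℂ) - v) ^ 2 + 2 * π * I * ((m : ℂ) - v) * s) := by
  have hwa : 0 < (w * a).re := by
    rw [re_mul_ofReal]; positivity
  have hwa0 : w * a ≠ 0 := by
    intro h; rw [h] at hwa; simp at hwa
  have h := Complex.tsum_exp_neg_quadratic hwa (-w * a * s + I * v)
  have e1 : ∀ n : ℤ, cexp (-π * w * a * ((n : ℂ) + s) ^ 2 + 2 * π * I * v * n) =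
      cexp (-π * w * a * s ^ 2) *
        cexp (-π * (w * a) * n ^ 2 + 2 * π * (-w * a * s + I * v) * n) := by
    intro n
    rw [← Complex.exp_add]
    congr 1
    ring
  simp_rw [e1]
  rw [tsum_mul_left, h, mul_left_comm, ← tsum_mul_left]
  congr 1
  refine tsum_congr fun n => ?_
  rw [← Complex.exp_add]
  congr 1
  have hw0 : w ≠ 0 := left_ne_zero_of_mul hwa0
  have ha0 : (a : ℂ) ≠ 0 := right_ne_zero_of_mul hwa0
  have h3 : I ^ 3 = -I := by rw [pow_succ, I_sq]; ring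
  have h4 : I ^ 4 = 1 := I_pow_four
  field_simp
  ring_nf
  simp only [I_sq, h3, h4]
  ring

theorem norm_cexp_aux (z : ℂ) (t r : ℝ) :
    ‖cexp (z * (t : ℂ) ^ 2 + 2 * π * I * r)‖ = Real.exp (z.re * t ^ 2) := by
  rw [Complex.norm_exp]
  congr 1
  rw [← ofReal_pow, add_re, re_mul_ofReal]
  have : (2 * (π : ℂ) * I * r) = ((2 * π * r : ℝ) : ℂ) * I := by push_cast; ring
  rw [this, re_ofReal_mul]
  simp

/-- A "Poisson pair": a family `g v` on `ι` (`v` = character parameter on the coordinate `φ`),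
a dual family `gh v` on `κ`, with `∑ g v = K ∑ gh v`. -/
structure IsPP {ι κ : Type} (φ : ι → ℝ) (g : ℝ → ι → ℂ) (gh : ℝ → κ → ℂ) (K : ℂ) : Prop where
  shift : ∀ v t x, g (v + t) x = g v x * cexp (2 * π * I * t * φ x)
  summ : ∀ v, Summable fun x => ‖g v x‖
  bound : ∃ M : ℝ, ∀ v, Summable (fun y => ‖gh v y‖) ∧ ∑' y, ‖gh v y‖ ≤ M
  eq : ∀ v, ∑' x, g v x = K * ∑' y, gh v y

theorem IsPP.base : IsPP (ι := Unit) (κ := Unit) (fun _ => 0) (fun _ _ => 1) (fun _ _ => 1) 1 where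
  shift := by intro v t x; simp
  summ := fun v => (hasSum_fintype _).summable
  bound := ⟨1, fun v => ⟨(hasSum_fintype _).summable, by simp⟩⟩
  eq := by intro v; simp

variable {ι κ : Type} {φ : ι → ℝ} {g : ℝ → ι → ℂ} {gh : ℝ → κ → ℂ} {K : ℂ}

/-- primal family of the step -/
noncomputable def stepG (φ : ι → ℝ) (g : ℝ → ι → ℂ) (w : ℂ) (a c v1 : ℝ) (v : ℝ) (x : ℤ × ι) : ℂ :=
  cexp (-π * w * a * ((x.1 : ℂ) + c * φ x.2) ^ 2 + 2 * π * I * v * x.1) * g v1 x.2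

/-- dual family of the step -/
noncomputable def stepH (gh : ℝ → κ → ℂ) (w : ℂ) (a c v1 : ℝ) (v : ℝ) (y : ℤ × κ) : ℂ :=
  cexp (-π / (w * a) * ((y.1 : ℂ) - v) ^ 2) * gh (v1 + ((y.1 : ℝ) - v) * c) y.2

theorem norm_stepG (w : ℂ) (a c v1 v : ℝ) (x : ℤ × ι) :
    ‖stepG φ g w a c v1 v x‖ =
      Real.exp (-(π * w.re * a) * ((x.1 : ℝ) + c * φ x.2) ^ 2) * ‖g v1 x.2‖ := by
  rw [stepG, norm_mul]
  congr 1
  have := norm_cexp_aux (-π * w * a) ((x.1 : ℝ) + c * φ x.2) (v * x.1)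
  push_cast at this
  rw [show (2 * (π : ℂ) * I * v * x.1) = 2 * π * I * (v * x.1) by ring, this]
  congr 2
  have : (-(π : ℂ) * w * a) = ((-π * a : ℝ) : ℂ) * w := by push_cast; ring
  rw [this, re_ofReal_mul]
  ring

theorem norm_stepH (w : ℂ) (a c v1 v : ℝ) (y : ℤ × κ) :
    ‖stepH gh w a c v1 v y‖ =
      Real.exp (-(π * (1 / (w * a)).re) * ((y.1 : ℝ) + -v) ^ 2) *
        ‖gh (v1 + ((y.1 : ℝ) - v) * c) y.2‖ := by
  rw [stepH, norm_mul]
  congr 1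
  have := norm_cexp_aux (-π / (w * a)) ((y.1 : ℝ) + -v) 0
  push_cast at this
  rw [mul_zero, add_zero] at this
  rw [show ((y.1 : ℂ) - v) = (y.1 : ℂ) + -v by ring, this]
  congr 2
  have : (-(π : ℂ) / (w * a)) = ((-π : ℝ) : ℂ) * (1 / (w * a)) := by push_cast; ring
  rw [this, re_ofReal_mul]
  ring

theorem re_inv_pos {w : ℂ} (hw : 0 < w.re) {a : ℝ} (ha : 0 < a) : 0 < (1 / (w * a)).re := by
  have hwa : 0 < (w * a).re := by
    rw [re_mul_ofReal]; positivity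
  have hwa0 : w * a ≠ 0 := by
    intro h; rw [h] at hwa; simp at hwa
  rw [one_div, inv_re]
  exact div_pos hwa (normSq_pos.mpr hwa0)

theorem summable_stepG (h : IsPP φ g gh K) {w : ℂ} (hw : 0 < w.re) {a : ℝ} (ha : 0 < a)
    (c v1 v : ℝ) : Summable fun x : ℤ × ι => ‖stepG φ g w a c v1 v x‖ := by
  have hb : 0 < π * w.re * a := by positivity
  obtain ⟨K1, hK1⟩ := gauss1_bound hb
  simp_rw [norm_stepG]
  have hF : Summable fun y : ι × ℤ =>
      Real.exp (-(π * w.re * a) * ((y.2 : ℝ) + c * φ y.1) ^ 2) * ‖g v1 y.1‖ := by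
    have hF0 : (0 : ι × ℤ → ℝ) ≤ fun y : ι × ℤ =>
        Real.exp (-(π * w.re * a) * ((y.2 : ℝ) + c * φ y.1) ^ 2) * ‖g v1 y.1‖ :=
      fun y => mul_nonneg (Real.exp_pos _).le (norm_nonneg _)
    refine (summable_prod_of_nonneg hF0).mpr
      ⟨fun x' => (gauss1_summable hb (c * φ x')).mul_right ‖g v1 x'‖, ?_⟩
    refine Summable.of_nonneg_of_le (fun x' => tsum_nonneg fun n => by positivity) (fun x' => ?_)
      ((h.summ v1).mul_left K1)
    simp only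
    rw [tsum_mul_right]
    exact mul_le_mul_of_nonneg_right (hK1 _) (norm_nonneg _)
  exact (Equiv.prodComm ℤ ι).summable_iff.mpr hF

theorem summable_stepH_aux (h : IsPP φ g gh K) {w : ℂ} (hw : 0 < w.re) {a : ℝ} (ha : 0 < a)
    (c v1 : ℝ) : ∃ M : ℝ, ∀ v, Summable (fun y : ℤ × κ => ‖stepH gh w a c v1 v y‖) ∧
      ∑' y : ℤ × κ, ‖stepH gh w a c v1 v y‖ ≤ M := by
  have hb : 0 < π * (1 / (w * a)).re := mul_pos Real.pi_pos (re_inv_pos hw ha)
  obtain ⟨K1, hK1⟩ := gauss1_bound hb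
  obtain ⟨M, hM⟩ := h.bound
  have hM0 : 0 ≤ M := (tsum_nonneg fun y => norm_nonneg _).trans (hM 0).2
  refine ⟨K1 * M, fun v => ?_⟩
  have hle : ∀ m : ℤ, ∑' y' : κ, Real.exp (-(π * (1 / (w * a)).re) * ((m : ℝ) + -v) ^ 2) *
        ‖gh (v1 + ((m : ℝ) - v) * c) y'‖ ≤
      Real.exp (-(π * (1 / (w * a)).re) * ((m : ℝ) + -v) ^ 2) * M := by
    intro m
    rw [tsum_mul_left]
    exact mul_le_mul_of_nonneg_left (hM _).2 (Real.exp_pos _).le
  have hs : Summable fun y : ℤ × κ => ‖stepH gh w a c v1 v y‖ := by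
    simp_rw [norm_stepH]
    have hF0 : (0 : ℤ × κ → ℝ) ≤ fun y : ℤ × κ =>
        Real.exp (-(π * (1 / (w * a)).re) * ((y.1 : ℝ) + -v) ^ 2) *
          ‖gh (v1 + ((y.1 : ℝ) - v) * c) y.2‖ :=
      fun y => mul_nonneg (Real.exp_pos _).le (norm_nonneg _)
    refine (summable_prod_of_nonneg hF0).mpr
      ⟨fun m => (hM (v1 + ((m : ℝ) - v) * c)).1.mul_left
        (Real.exp (-(π * (1 / (w * a)).re) * ((m : ℝ) + -v) ^ 2)), ?_⟩
    exact Summable.of_nonneg_of_le (fun m => tsum_nonneg fun n => by positivity) hle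
      ((gauss1_summable hb (-v)).mul_right M)
  refine ⟨hs, ?_⟩
  rw [hs.tsum_prod]
  simp_rw [norm_stepH]
  calc _ ≤ ∑' m : ℤ, Real.exp (-(π * (1 / (w * a)).re) * ((m : ℝ) + -v) ^ 2) * M := by
        refine Summable.tsum_le_tsum hle ?_ ((gauss1_summable hb (-v)).mul_right M)
        exact Summable.of_nonneg_of_le (fun m => tsum_nonneg fun n => by positivity) hle
          ((gauss1_summable hb (-v)).mul_right M)
    _ ≤ K1 * M := by
        rw [tsum_mul_right]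
        exact mul_le_mul_of_nonneg_right (hK1 _) hM0

theorem norm_cexp_unit (r : ℝ) : ‖cexp (2 * π * I * r)‖ = 1 := by
  have := norm_cexp_aux 0 0 r
  simpa using this

theorem tsum_stepG (h : IsPP φ g gh K) {w : ℂ} (hw : 0 < w.re) {a : ℝ} (ha : 0 < a)
    (c v1 v : ℝ) : ∑' x, stepG φ g w a c v1 v x =
      (1 / (w * a) ^ (1 / 2 : ℂ) * K) * ∑' y, stepH gh w a c v1 v y := by
  have hsG : Summable (stepG φ g w a c v1 v) := (summable_stepG h hw ha c v1 v).of_norm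
  obtain ⟨M, hM⟩ := summable_stepH_aux h hw ha c v1
  have hsH : Summable (stepH gh w a c v1 v) := (hM v).1.of_norm
  have hb : 0 < π * (1 / (w * a)).re := mul_pos Real.pi_pos (re_inv_pos hw ha)
  -- the mixed family
  let F : ℤ → ι → ℂ := fun m x' => cexp (-π / (w * a) * ((m : ℂ) - v) ^ 2) *
    (g v1 x' * cexp (2 * π * I * ((((m : ℝ) - v) * c : ℝ) : ℂ) * φ x'))
  have hF : Summable (Function.uncurry F) := by
    apply Summable.of_norm
    have h1 := Summable.mul_of_nonneg (gauss1_summable hb (-v)) (h.summ v1)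
      (fun m => (Real.exp_pos _).le) (fun x' => norm_nonneg _)
    refine h1.congr fun y => ?_
    obtain ⟨m, x'⟩ := y
    simp only [Function.uncurry, F]
    rw [norm_mul, norm_mul]
    have h2 := norm_cexp_unit ((((m : ℝ) - v) * c) * φ x')
    have h3 := norm_cexp_aux (-π / (w * a)) ((m : ℝ) + -v) 0
    push_cast at h2 h3 ⊢
    rw [mul_zero, add_zero] at h3
    rw [show (2 * (π : ℂ) * I * (((m : ℂ) - v) * c) * φ x') =
      2 * π * I * (((m : ℂ) - v) * c * φ x') by ring, h2, mul_one,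
      show ((m : ℂ) - v) = (m : ℂ) + -v by ring, h3]
    congr 2
    have : (-(π : ℂ) / (w * a)) = ((-π : ℝ) : ℂ) * (1 / (w * a)) := by push_cast; ring
    rw [this, re_ofReal_mul]
    ring
  have e1 : ∑' x : ℤ × ι, stepG φ g w a c v1 v x =
      ∑' x' : ι, ∑' n : ℤ, stepG φ g w a c v1 v (n, x') := by
    rw [← (Equiv.prodComm ι ℤ).tsum_eq]
    exact Summable.tsum_prod ((Equiv.prodComm ι ℤ).summable_iff.mpr hsG)
  have e2 : ∀ x' : ι, ∑' n : ℤ, stepG φ g w a c v1 v (n, x') =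
      1 / (w * a) ^ (1 / 2 : ℂ) * ∑' m : ℤ, F m x' := by
    intro x'
    simp only [stepG, F]
    rw [tsum_mul_right]
    have := poisson1 hw ha (c * φ x') v
    push_cast at this
    rw [this, mul_assoc, ← tsum_mul_right]
    congr 1
    refine tsum_congr fun m => ?_
    rw [Complex.exp_add, mul_assoc, mul_comm (g v1 x')]
    congr 3
    push_cast
    ring
  have e3 : ∀ m : ℤ, ∑' x' : ι, F m x' =
      K * ∑' y' : κ, stepH gh w a c v1 v (m, y') := by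
    intro m
    simp only [F, stepH]
    rw [tsum_mul_left, tsum_mul_left]
    simp_rw [← h.shift]
    rw [h.eq]
    ring
  rw [e1]
  simp_rw [e2]
  rw [tsum_mul_left, hF.tsum_comm]
  simp_rw [e3]
  rw [tsum_mul_left, hsH.tsum_prod]
  ring

theorem IsPP.step (h : IsPP φ g gh K) {w : ℂ} (hw : 0 < w.re) {a : ℝ} (ha : 0 < a) (c v1 : ℝ) :
    IsPP (fun x : ℤ × ι => (x.1 : ℝ)) (stepG φ g w a c v1) (stepH gh w a c v1)
      (1 / (w * a) ^ (1 / 2 : ℂ) * K) where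
  shift := by
    intro v t x
    simp only [stepG]
    conv_rhs => rw [mul_right_comm, ← Complex.exp_add]
    congr 2
    push_cast
    ring
  summ := summable_stepG h hw ha c v1
  bound := summable_stepH_aux h hw ha c v1
  eq := tsum_stepG h hw ha c v1


theorem cpow_half_mul {w : ℂ} (hw : w ≠ 0) {a : ℝ} (ha : 0 < a) :
    (w * a) ^ (1 / 2 : ℂ) = w ^ (1 / 2 : ℂ) * (Real.sqrt a : ℂ) := by
  have ha0 : (a : ℂ) ≠ 0 := by exact_mod_cast ha.ne'
  rw [cpow_def_of_ne_zero (mul_ne_zero hw ha0), log_mul_ofReal a ha w hw, add_mul, Complex.exp_add,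
    ← cpow_def_of_ne_zero hw, mul_comm]
  congr 1
  rw [Real.sqrt_eq_rpow, Real.rpow_def_of_pos ha]
  push_cast
  rfl

theorem cpow_half_pow_four (w : ℂ) : (w ^ (1 / 2 : ℂ)) ^ 4 = w ^ 2 := by
  have h := cpow_nat_inv_pow w (n := 2) (by norm_num)
  rw [show (1 / 2 : ℂ) = ((2 : ℕ) : ℂ)⁻¹ by norm_num, show (4 : ℕ) = 2 * 2 by norm_num, pow_mul, h]

theorem factor4 {w : ℂ} (hw : w ≠ 0) {a0 a1 a2 a3 : ℝ} (h0 : 0 < a0) (h1 : 0 < a1) (h2 : 0 < a2)
    (h3 : 0 < a3) :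
    1 / (w * a0) ^ (1 / 2 : ℂ) * (1 / (w * a1) ^ (1 / 2 : ℂ) * (1 / (w * a2) ^ (1 / 2 : ℂ) *
      (1 / (w * a3) ^ (1 / 2 : ℂ) * 1))) = 1 / (w ^ 2 * (Real.sqrt (a0 * a1 * a2 * a3) : ℂ)) := by
  rw [cpow_half_mul hw h0, cpow_half_mul hw h1, cpow_half_mul hw h2, cpow_half_mul hw h3,
    ← cpow_half_pow_four w, Real.sqrt_mul (by positivity), Real.sqrt_mul (by positivity),
    Real.sqrt_mul (by positivity)]
  push_cast
  rw [mul_one, one_div_mul_one_div, one_div_mul_one_div, one_div_mul_one_div]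
  congr 1
  ring

/-- `ℤ⁴` as an iterated product. -/
def e4 : (Fin 4 → ℤ) ≃ ℤ × ℤ × ℤ × ℤ × Unit where
  toFun x := (x 0, x 1, x 2, x 3, ())
  invFun t := ![t.1, t.2.1, t.2.2.1, t.2.2.2.1]
  left_inv x := by
    ext i
    fin_cases i <;> rfl
  right_inv t := by
    obtain ⟨a, b, c, d, ⟨⟩⟩ := t
    rfl


section chain

variable {a0 a1 a2 a3 : ℝ}

/-- Poisson summation. -/
theorem poisson4 (h0 : 0 < a0) (h1 : 0 < a1) (h2 : 0 < a2) (h3 : 0 < a3)
    (c0 c1 c2 : ℝ) {w : ℂ} (hw : 0 < w.re) (v : Fin 4 → ℝ) :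
    ∑' x : Fin 4 → ℤ, cexp (-π * w * (a0 * ((x 0 : ℂ) + c0 * x 1) ^ 2
      + a1 * ((x 1 : ℂ) + c1 * x 2) ^ 2 + a2 * ((x 2 : ℂ) + c2 * x 3) ^ 2 + a3 * (x 3 : ℂ) ^ 2)
      + 2 * π * I * (v 0 * x 0 + v 1 * x 1 + v 2 * x 2 + v 3 * x 3)) =
    1 / (w ^ 2 * (Real.sqrt (a0 * a1 * a2 * a3) : ℂ)) *
      ∑' y : Fin 4 → ℤ, cexp (-π / w * (((y 0 : ℂ) + v 0) ^ 2 / a0
      + ((y 1 : ℂ) + v 1 - c0 * ((y 0 : ℂ) + v 0)) ^ 2 / a1
      + ((y 2 : ℂ) + v 2 - c1 * ((y 1 : ℂ) + v 1 - c0 * ((y 0 : ℂ) + v 0))) ^ 2 / a2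
      + ((y 3 : ℂ) + v 3 - c2 * ((y 2 : ℂ) + v 2 - c1 * ((y 1 : ℂ) + v 1 - c0 * ((y 0 : ℂ) + v 0))))
          ^ 2 / a3)) := by
  have hw0 : w ≠ 0 := by
    intro h; rw [h] at hw; simp at hw
  have P := (((IsPP.base.step hw h3 0 0).step hw h2 c2 (v 3)).step hw h1 c1 (v 2)).step hw h0 c0 (v 1)
  have E := P.eq (v 0)
  rw [← e4.tsum_eq, ← e4.tsum_eq, factor4 hw0 h0 h1 h2 h3] at E
  conv_rhs at E => rw [← (Equiv.neg (Fin 4 → ℤ)).tsum_eq]
  refine Eq.trans (tsum_congr fun x => ?_) (E.trans ?_)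
  · simp only [stepG, e4, Equiv.coe_fn_mk]
    rw [mul_one, ← Complex.exp_add, ← Complex.exp_add, ← Complex.exp_add]
    congr 1
    push_cast
    ring
  · congr 1
    refine tsum_congr fun y => ?_
    simp only [stepH, e4, Equiv.coe_fn_mk, Equiv.neg_apply, Pi.neg_apply]
    rw [mul_one, ← Complex.exp_add, ← Complex.exp_add, ← Complex.exp_add]
    congr 1
    have ha0 : (a0 : ℂ) ≠ 0 := by exact_mod_cast h0.ne'
    have ha1 : (a1 : ℂ) ≠ 0 := by exact_mod_cast h1.ne'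
    have ha2 : (a2 : ℂ) ≠ 0 := by exact_mod_cast h2.ne'
    have ha3 : (a3 : ℂ) ≠ 0 := by exact_mod_cast h3.ne'
    push_cast
    field_simp
    ring

/-- summability of the primal Gaussian -/
theorem summable4_prim (h0 : 0 < a0) (h1 : 0 < a1) (h2 : 0 < a2) (h3 : 0 < a3)
    (c0 c1 c2 : ℝ) {t : ℝ} (ht : 0 < t) :
    Summable fun x : Fin 4 → ℤ => Real.exp (-t * (a0 * ((x 0 : ℝ) + c0 * x 1) ^ 2
      + a1 * ((x 1 : ℝ) + c1 * x 2) ^ 2 + a2 * ((x 2 : ℝ) + c2 * x 3) ^ 2 + a3 * (x 3 : ℝ) ^ 2)) := by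
  have hw : 0 < (((t / π : ℝ)) : ℂ).re := by
    rw [ofReal_re]; positivity
  have P := (((IsPP.base.step hw h3 0 0).step hw h2 c2 0).step hw h1 c1 0).step hw h0 c0 0
  have E := e4.summable_iff.mpr (P.summ 0)
  refine E.congr fun x => ?_
  simp only [Function.comp, norm_stepG, e4, Equiv.coe_fn_mk, ofReal_re, norm_one, mul_one]
  rw [← Real.exp_add, ← Real.exp_add, ← Real.exp_add]
  congr 1
  have hpi : (π : ℝ) ≠ 0 := Real.pi_ne_zero
  field_simp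
  ring

/-- summability of the dual Gaussian -/
theorem summable4_dual (h0 : 0 < a0) (h1 : 0 < a1) (h2 : 0 < a2) (h3 : 0 < a3)
    (c0 c1 c2 : ℝ) (v : Fin 4 → ℝ) {t : ℝ} (ht : 0 < t) :
    Summable fun y : Fin 4 → ℤ => Real.exp (-t * (((y 0 : ℝ) + v 0) ^ 2 / a0
      + ((y 1 : ℝ) + v 1 - c0 * ((y 0 : ℝ) + v 0)) ^ 2 / a1
      + ((y 2 : ℝ) + v 2 - c1 * ((y 1 : ℝ) + v 1 - c0 * ((y 0 : ℝ) + v 0))) ^ 2 / a2
      + ((y 3 : ℝ) + v 3 - c2 * ((y 2 : ℝ) + v 2 - c1 * ((y 1 : ℝ) + v 1 - c0 * ((y 0 : ℝ) + v 0))))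
          ^ 2 / a3)) := by
  have hw : 0 < (((π / t : ℝ)) : ℂ).re := by
    rw [ofReal_re]; positivity
  have P := (((IsPP.base.step hw h3 0 0).step hw h2 c2 (v 3)).step hw h1 c1 (v 2)).step hw h0 c0 (v 1)
  obtain ⟨M, hM⟩ := P.bound
  have E := (Equiv.neg (Fin 4 → ℤ)).summable_iff.mpr (e4.summable_iff.mpr (hM (v 0)).1)
  refine E.congr fun y => ?_
  have hre : ∀ a : ℝ, (1 / ((((π / t : ℝ)) : ℂ) * (a : ℂ))).re = 1 / (π / t * a) := by
    intro a
    rw [← ofReal_mul, ← ofReal_one, ← ofReal_div, ofReal_re]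
  simp only [Function.comp, norm_stepH, e4, Equiv.coe_fn_mk, norm_one, mul_one, hre,
    Equiv.neg_apply, Pi.neg_apply]
  rw [← Real.exp_add, ← Real.exp_add, ← Real.exp_add]
  congr 1
  have hpi : (π : ℝ) ≠ 0 := Real.pi_ne_zero
  push_cast
  field_simp
  ring

end chain

end Fermat.Agent.S16.Theta
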