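import Fermat.Agent.S16.Theta.Defs
import Fermat.Agent.S16.Theta.Poisson
import Fermat.Agent.S16.Theta.Gauss

/-!
# The explicit lattice satisfies `Data`
-/

set_option autoImplicit false

namespace Fermat.Agent.S16.Theta

open Complex UpperHalfPlane Matrix
open scoped Real

/-! ### algebraic identities -/

theorem explicit_AE_symm (p k r s : ℤ) : (AE p k r s)ᵀ = AE p k r s := by
  ext i j
  fin_cases i <;> fin_cases j <;> rfl

theorem explicit_BE_symm (k r s : ℤ) : (BE k r s)ᵀ = BE k r s := by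
  ext i j
  fin_cases i <;> fin_cases j <;> rfl

theorem explicit_AE_mul_BE (p k r s : ℤ) (h : (4 * k - 1) * s = r ^ 2 + p) :
    AE p k r s * BE k r s = p • (1 : Matrix (Fin 4) (Fin 4) ℤ) := by
  ext i j
  fin_cases i <;> fin_cases j <;>
    simp [AE, BE, Matrix.mul_apply, Fin.sum_univ_four] <;>
    first
      | ring1
      | linear_combination h
      | linear_combination r * h
      | linear_combination (-2 * r) * h
      | linear_combination (4 * k) * h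
      | linear_combination (-2 : ℤ) * h

theorem explicit_two_QE (p k r s : ℤ) (x : V) :
    2 * QE p k r s x = x ⬝ᵥ (AE p k r s *ᵥ x) := by
  simp [QE, AE, dotProduct, mulVec, Fin.sum_univ_four]
  ring

theorem explicit_two_QsE (k r s : ℤ) (x : V) :
    2 * QsE k r s x = x ⬝ᵥ (BE k r s *ᵥ x) := by
  simp [QsE, BE, dotProduct, mulVec, Fin.sum_univ_four]
  ring

theorem explicit_QE_sq (p k r s : ℤ) (h : (4 * k - 1) * s = r ^ 2 + p) (x : V) :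
    4 * (4 * k - 1) * QE p k r s x = (4 * k - 1) * (2 * x 0 + x 1) ^ 2
      + ((4 * k - 1) * x 1 + 2 * r * x 2) ^ 2 + p * (2 * x 2 + (4 * k - 1) * x 3) ^ 2
      + p * (4 * k - 1) * x 3 ^ 2 := by
  rw [QE]
  linear_combination (4 * x 2 ^ 2) * h

theorem explicit_QsE_sq (p k r s : ℤ) (h : (4 * k - 1) * s = r ^ 2 + p) (w : V) :
    4 * (4 * k - 1) * QsE k r s w = p * (4 * k - 1) * w 0 ^ 2 + p * (2 * w 1 - w 0) ^ 2
      + ((4 * k - 1) * w 2 - 2 * r * w 1 + r * w 0) ^ 2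
      + (4 * k - 1) * (2 * w 3 - ((4 * k - 1) * w 2 - 2 * r * w 1 + r * w 0)) ^ 2 := by
  rw [QsE]
  linear_combination (4 * (k * w 0 ^ 2 - w 0 * w 1 + w 1 ^ 2)) * h

theorem explicit_QE_pos (p k r s : ℤ) (hp : 0 < p) (hk : 0 < k)
    (h : (4 * k - 1) * s = r ^ 2 + p) (x : V) (hx : x ≠ 0) : 0 < QE p k r s x := by
  have hq : 0 < 4 * k - 1 := by omega
  have h1 := explicit_QE_sq p k r s h x
  by_contra hneg
  rw [not_lt] at hneg
  have h2 : 4 * (4 * k - 1) * QE p k r s x ≤ 0 :=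
    mul_nonpos_of_nonneg_of_nonpos (by positivity) hneg
  have t0 : 0 ≤ (4 * k - 1) * (2 * x 0 + x 1) ^ 2 := by positivity
  have t1 : 0 ≤ ((4 * k - 1) * x 1 + 2 * r * x 2) ^ 2 := by positivity
  have t2 : 0 ≤ p * (2 * x 2 + (4 * k - 1) * x 3) ^ 2 := by positivity
  have t3 : 0 ≤ p * (4 * k - 1) * x 3 ^ 2 := by positivity
  have e3 : p * (4 * k - 1) * x 3 ^ 2 = 0 := by linarith
  have e2 : p * (2 * x 2 + (4 * k - 1) * x 3) ^ 2 = 0 := by linarith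
  have e1 : ((4 * k - 1) * x 1 + 2 * r * x 2) ^ 2 = 0 := by linarith
  have e0 : (4 * k - 1) * (2 * x 0 + x 1) ^ 2 = 0 := by linarith
  have x3 : x 3 = 0 := by
    have : x 3 ^ 2 = 0 := (mul_eq_zero.mp e3).resolve_left (by positivity)
    exact pow_eq_zero_iff (two_ne_zero) |>.mp this
  have x2 : x 2 = 0 := by
    have : (2 * x 2 + (4 * k - 1) * x 3) ^ 2 = 0 := (mul_eq_zero.mp e2).resolve_left hp.ne'
    have := pow_eq_zero_iff (two_ne_zero) |>.mp this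
    rw [x3] at this
    omega
  have x1 : x 1 = 0 := by
    have := pow_eq_zero_iff (two_ne_zero) |>.mp e1
    rw [x2, mul_zero, add_zero] at this
    exact (mul_eq_zero.mp this).resolve_left hq.ne'
  have x0 : x 0 = 0 := by
    have : (2 * x 0 + x 1) ^ 2 = 0 := (mul_eq_zero.mp e0).resolve_left hq.ne'
    have := pow_eq_zero_iff (two_ne_zero) |>.mp this
    rw [x1] at this
    omega
  apply hx
  funext i
  fin_cases i
  · exact x0
  · exact x1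
  · exact x2
  · exact x3

theorem explicit_QsE_pos (p k r s : ℤ) (hp : 0 < p) (hk : 0 < k)
    (h : (4 * k - 1) * s = r ^ 2 + p) (w : V) (hw : w ≠ 0) : 0 < QsE k r s w := by
  have hq : 0 < 4 * k - 1 := by omega
  have h1 := explicit_QsE_sq p k r s h w
  by_contra hneg
  rw [not_lt] at hneg
  have h2 : 4 * (4 * k - 1) * QsE k r s w ≤ 0 :=
    mul_nonpos_of_nonneg_of_nonpos (by positivity) hneg
  have t0 : 0 ≤ p * (4 * k - 1) * w 0 ^ 2 := by positivity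
  have t1 : 0 ≤ p * (2 * w 1 - w 0) ^ 2 := by positivity
  have t2 : 0 ≤ ((4 * k - 1) * w 2 - 2 * r * w 1 + r * w 0) ^ 2 := by positivity
  have t3 : 0 ≤ (4 * k - 1) * (2 * w 3 - ((4 * k - 1) * w 2 - 2 * r * w 1 + r * w 0)) ^ 2 := by
    positivity
  have e0 : p * (4 * k - 1) * w 0 ^ 2 = 0 := by linarith
  have e1 : p * (2 * w 1 - w 0) ^ 2 = 0 := by linarith
  have e2 : ((4 * k - 1) * w 2 - 2 * r * w 1 + r * w 0) ^ 2 = 0 := by linarith
  have e3 : (4 * k - 1) * (2 * w 3 - ((4 * k - 1) * w 2 - 2 * r * w 1 + r * w 0)) ^ 2 = 0 := by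
    linarith
  have w0 : w 0 = 0 := by
    have : w 0 ^ 2 = 0 := (mul_eq_zero.mp e0).resolve_left (by positivity)
    exact pow_eq_zero_iff (two_ne_zero) |>.mp this
  have w1 : w 1 = 0 := by
    have : (2 * w 1 - w 0) ^ 2 = 0 := (mul_eq_zero.mp e1).resolve_left hp.ne'
    have := pow_eq_zero_iff (two_ne_zero) |>.mp this
    rw [w0] at this
    omega
  have n2 : (4 * k - 1) * w 2 - 2 * r * w 1 + r * w 0 = 0 := pow_eq_zero_iff (two_ne_zero) |>.mp e2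
  have w2 : w 2 = 0 := by
    have h3 := n2
    rw [w0, w1] at h3
    simp only [mul_zero, sub_zero, add_zero] at h3
    exact (mul_eq_zero.mp h3).resolve_left hq.ne'
  have w3 : w 3 = 0 := by
    have : (2 * w 3 - ((4 * k - 1) * w 2 - 2 * r * w 1 + r * w 0)) ^ 2 = 0 :=
      (mul_eq_zero.mp e3).resolve_left hq.ne'
    have := pow_eq_zero_iff (two_ne_zero) |>.mp this
    rw [n2] at this
    omega
  apply hw
  funext i
  fin_cases i
  · exact w0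
  · exact w1
  · exact w2
  · exact w3

/-- primal form in chain coordinates, over any field of characteristic `≠ 2`. -/
theorem explicit_prim_id {K : Type*} [Field K] (p k r s x0 x1 x2 x3 : K) (h2 : (2 : K) ≠ 0)
    (hq : 4 * k - 1 ≠ 0) (h : (4 * k - 1) * s = r ^ 2 + p) :
    2 * (x0 + 1 / 2 * x1) ^ 2 + (4 * k - 1) / 2 * (x1 + 2 * r / (4 * k - 1) * x2) ^ 2
      + 2 * p / (4 * k - 1) * (x2 + (4 * k - 1) / 2 * x3) ^ 2 + p / 2 * x3 ^ 2 =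
    2 * (x0 ^ 2 + x0 * x1 + k * x1 ^ 2 + r * x1 * x2 + s * x2 ^ 2 + p * x2 * x3
      + p * k * x3 ^ 2) := by
  have hs : s = (r ^ 2 + p) / (4 * k - 1) := by
    rw [eq_div_iff hq, ← h]; ring
  rw [hs]
  field_simp
  ring

/-- dual form in chain coordinates. -/
theorem explicit_dual_id {K : Type*} [Field K] (p k r s y0 y1 y2 y3 : K) (h2 : (2 : K) ≠ 0)
    (hp : p ≠ 0) (hq : 4 * k - 1 ≠ 0) (h : (4 * k - 1) * s = r ^ 2 + p) :
    y0 ^ 2 / 2 + (y1 - 1 / 2 * y0) ^ 2 / ((4 * k - 1) / 2)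
      + (y2 - 2 * r / (4 * k - 1) * (y1 - 1 / 2 * y0)) ^ 2 / (2 * p / (4 * k - 1))
      + (y3 - (4 * k - 1) / 2 * (y2 - 2 * r / (4 * k - 1) * (y1 - 1 / 2 * y0))) ^ 2 / (p / 2) =
    2 / p * (k * s * y0 ^ 2 - (s + r ^ 2) * y0 * y1 + (s + r ^ 2) * y1 ^ 2 + 2 * k * r * y0 * y2
    - 4 * k * r * y1 * y2 + k * (4 * k - 1) * y2 ^ 2 - r * y0 * y3 + 2 * r * y1 * y3
    - (4 * k - 1) * y2 * y3 + y3 ^ 2) := by
  have hs : s = (r ^ 2 + p) / (4 * k - 1) := by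
    rw [eq_div_iff hq, ← h]; ring
  rw [hs]
  field_simp
  ring

theorem explicit_summable_QE (p k r s : ℤ) (hp : 0 < p) (hk : 0 < k)
    (h : (4 * k - 1) * s = r ^ 2 + p) (t : ℝ) (ht : 0 < t) :
    Summable fun x : V => Real.exp (-t * (QE p k r s x : ℝ)) := by
  have hq : (0 : ℝ) < 4 * (k : ℝ) - 1 := by
    have : (1 : ℝ) ≤ k := by exact_mod_cast hk
    linarith
  have hpR : (0 : ℝ) < p := by exact_mod_cast hp
  have hR : (4 * (k : ℝ) - 1) * s = (r : ℝ) ^ 2 + p := by exact_mod_cast h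
  have key := summable4_prim (a0 := 2) (a1 := (4 * (k : ℝ) - 1) / 2)
    (a2 := 2 * (p : ℝ) / (4 * (k : ℝ) - 1)) (a3 := (p : ℝ) / 2) (by norm_num) (by positivity)
    (by positivity) (by positivity) (1 / 2) (2 * (r : ℝ) / (4 * (k : ℝ) - 1))
    ((4 * (k : ℝ) - 1) / 2) (t := t / 2) (by positivity)
  refine key.congr fun x => ?_
  rw [explicit_prim_id (p : ℝ) k r s (x 0) (x 1) (x 2) (x 3) two_ne_zero hq.ne' hR]
  congr 1
  simp only [QE]
  push_cast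
  ring

theorem explicit_summable_QsE (p k r s : ℤ) (hp : 0 < p) (hk : 0 < k)
    (h : (4 * k - 1) * s = r ^ 2 + p) (t : ℝ) (ht : 0 < t) :
    Summable fun x : V => Real.exp (-t * (QsE k r s x : ℝ)) := by
  have hq : (0 : ℝ) < 4 * (k : ℝ) - 1 := by
    have : (1 : ℝ) ≤ k := by exact_mod_cast hk
    linarith
  have hpR : (0 : ℝ) < p := by exact_mod_cast hp
  have hR : (4 * (k : ℝ) - 1) * s = (r : ℝ) ^ 2 + p := by exact_mod_cast h
  have key := summable4_dual (a0 := 2) (a1 := (4 * (k : ℝ) - 1) / 2)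
    (a2 := 2 * (p : ℝ) / (4 * (k : ℝ) - 1)) (a3 := (p : ℝ) / 2) (by norm_num) (by positivity)
    (by positivity) (by positivity) (1 / 2) (2 * (r : ℝ) / (4 * (k : ℝ) - 1))
    ((4 * (k : ℝ) - 1) / 2) (fun _ => 0) (t := t * p / 2) (by positivity)
  refine key.congr fun x => ?_
  simp only [add_zero]
  rw [explicit_dual_id (p : ℝ) k r s (x 0) (x 1) (x 2) (x 3) two_ne_zero hpR.ne' hq.ne' hR]
  congr 1
  simp only [QsE]
  push_cast
  field_simp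

theorem explicit_inv (p : ℕ) (hp : 0 < p) (k r s : ℤ) (hk : 0 < k)
    (h : (4 * k - 1) * s = r ^ 2 + p) (z : ℂ) (hz : 0 < z.im) (δ : V) :
    ∑' v : V, ee (-((QsE k r s (δ + (p : ℤ) • v) : ℤ) : ℂ) / ((p : ℂ) * z)) =
      -(z ^ 2 / (p : ℂ) ^ 3) *
        ∑' x : V, ee (z * ((QE p k r s x : ℤ) : ℂ) / (p : ℂ) ^ 2
          + ((x ⬝ᵥ δ : ℤ) : ℂ) / (p : ℂ)) := by
  have hq : (0 : ℝ) < 4 * (k : ℝ) - 1 := by
    have : (1 : ℝ) ≤ k := by exact_mod_cast hk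
    linarith
  have hpR : (0 : ℝ) < p := by exact_mod_cast hp
  have hpC : (p : ℂ) ≠ 0 := by exact_mod_cast hp.ne'
  have hqC : 4 * (k : ℂ) - 1 ≠ 0 := by exact_mod_cast hq.ne'
  have hC : (4 * (k : ℂ) - 1) * s = (r : ℂ) ^ 2 + p := by exact_mod_cast h
  have hz0 : z ≠ 0 := by
    rintro rfl
    simp at hz
  have hw : 0 < (-Complex.I * z / (p : ℂ) ^ 2).re := by
    have e : (-Complex.I * z / (p : ℂ) ^ 2) = ((-Complex.I * z) / ((p ^ 2 : ℕ) : ℂ)) := by push_cast; ring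
    rw [e, Complex.div_natCast_re]
    have e2 : (-Complex.I * z).re = z.im := by simp
    rw [e2]
    positivity
  have P := poisson4 (a0 := 2) (a1 := (4 * (k : ℝ) - 1) / 2)
    (a2 := 2 * (p : ℝ) / (4 * (k : ℝ) - 1)) (a3 := (p : ℝ) / 2) (by norm_num) (by positivity)
    (by positivity) (by positivity) (1 / 2) (2 * (r : ℝ) / (4 * (k : ℝ) - 1))
    ((4 * (k : ℝ) - 1) / 2) hw (fun i => (δ i : ℝ) / p)
  have hsqrt : Real.sqrt (2 * ((4 * (k : ℝ) - 1) / 2) * (2 * (p : ℝ) / (4 * (k : ℝ) - 1))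
      * ((p : ℝ) / 2)) = p := by
    have e : 2 * ((4 * (k : ℝ) - 1) / 2) * (2 * (p : ℝ) / (4 * (k : ℝ) - 1)) * ((p : ℝ) / 2)
        = (p : ℝ) ^ 2 := by
      field_simp
    rw [e, Real.sqrt_sq hpR.le]
  rw [hsqrt] at P
  have L : ∀ x : V, cexp (-π * (-Complex.I * z / (p : ℂ) ^ 2) * (((2 : ℝ) : ℂ) * ((x 0 : ℂ)
      + ((1 / 2 : ℝ) : ℂ) * x 1) ^ 2
      + (((4 * (k : ℝ) - 1) / 2 : ℝ) : ℂ) * ((x 1 : ℂ)
        + ((2 * (r : ℝ) / (4 * (k : ℝ) - 1) : ℝ) : ℂ) * x 2) ^ 2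
      + ((2 * (p : ℝ) / (4 * (k : ℝ) - 1) : ℝ) : ℂ) * ((x 2 : ℂ)
        + (((4 * (k : ℝ) - 1) / 2 : ℝ) : ℂ) * x 3) ^ 2 + (((p : ℝ) / 2 : ℝ) : ℂ) * (x 3 : ℂ) ^ 2)
      + 2 * π * Complex.I * ((((δ 0 : ℝ) / p : ℝ) : ℂ) * x 0 + (((δ 1 : ℝ) / p : ℝ) : ℂ) * x 1
        + (((δ 2 : ℝ) / p : ℝ) : ℂ) * x 2 + (((δ 3 : ℝ) / p : ℝ) : ℂ) * x 3)) =
      ee (z * ((QE p k r s x : ℤ) : ℂ) / (p : ℂ) ^ 2 + ((x ⬝ᵥ δ : ℤ) : ℂ) / (p : ℂ)) := by
    intro x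
    have e := explicit_prim_id (p : ℂ) k r s (x 0) (x 1) (x 2) (x 3) two_ne_zero hqC hC
    push_cast
    rw [e, ee]
    congr 1
    simp only [QE, dotProduct, Fin.sum_univ_four]
    push_cast
    field_simp
  have R : ∀ y : V, cexp (-π / (-Complex.I * z / (p : ℂ) ^ 2) * (((y 0 : ℂ) + (((δ 0 : ℝ) / p : ℝ) : ℂ)) ^ 2
        / ((2 : ℝ) : ℂ)
      + ((y 1 : ℂ) + (((δ 1 : ℝ) / p : ℝ) : ℂ) - ((1 / 2 : ℝ) : ℂ) * ((y 0 : ℂ)
        + (((δ 0 : ℝ) / p : ℝ) : ℂ))) ^ 2 / (((4 * (k : ℝ) - 1) / 2 : ℝ) : ℂ)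
      + ((y 2 : ℂ) + (((δ 2 : ℝ) / p : ℝ) : ℂ) - ((2 * (r : ℝ) / (4 * (k : ℝ) - 1) : ℝ) : ℂ)
        * ((y 1 : ℂ) + (((δ 1 : ℝ) / p : ℝ) : ℂ) - ((1 / 2 : ℝ) : ℂ) * ((y 0 : ℂ)
        + (((δ 0 : ℝ) / p : ℝ) : ℂ)))) ^ 2 / ((2 * (p : ℝ) / (4 * (k : ℝ) - 1) : ℝ) : ℂ)
      + ((y 3 : ℂ) + (((δ 3 : ℝ) / p : ℝ) : ℂ) - (((4 * (k : ℝ) - 1) / 2 : ℝ) : ℂ) * ((y 2 : ℂ)
        + (((δ 2 : ℝ) / p : ℝ) : ℂ) - ((2 * (r : ℝ) / (4 * (k : ℝ) - 1) : ℝ) : ℂ)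
        * ((y 1 : ℂ) + (((δ 1 : ℝ) / p : ℝ) : ℂ) - ((1 / 2 : ℝ) : ℂ) * ((y 0 : ℂ)
        + (((δ 0 : ℝ) / p : ℝ) : ℂ))))) ^ 2 / (((p : ℝ) / 2 : ℝ) : ℂ))) =
      ee (-((QsE k r s (δ + (p : ℤ) • y) : ℤ) : ℂ) / ((p : ℂ) * z)) := by
    intro y
    have e := explicit_dual_id (p : ℂ) k r s ((y 0 : ℂ) + (δ 0 : ℂ) / p) ((y 1 : ℂ) + (δ 1 : ℂ) / p)
      ((y 2 : ℂ) + (δ 2 : ℂ) / p) ((y 3 : ℂ) + (δ 3 : ℂ) / p) two_ne_zero hpC hqC hC
    push_cast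
    rw [e, ee]
    congr 1
    simp only [QsE, Pi.add_apply, Pi.smul_apply, smul_eq_mul]
    push_cast
    have hI : Complex.I ≠ 0 := Complex.I_ne_zero
    field_simp
    rw [Complex.I_sq]
    ring
  rw [tsum_congr L, tsum_congr R] at P
  rw [P]
  generalize (∑' v : V, ee (-((QsE k r s (δ + (p : ℤ) • v) : ℤ) : ℂ) / ((p : ℂ) * z))) = T
  have e1 : (-Complex.I * z / (p : ℂ) ^ 2) ^ 2 = -(z ^ 2 / (p : ℂ) ^ 4) := by
    rw [div_pow, mul_pow, neg_sq, Complex.I_sq]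
    ring
  rw [e1, Complex.ofReal_natCast]
  field_simp

theorem nonempty_data (p : ℕ) [Fact p.Prime] (hp : p ≠ 2) (k r s : ℤ) (hk : 0 < k)
    (h : (4 * k - 1) * s = r ^ 2 + p) (hleg : legendreSym p (-(4 * k - 1)) = -1) :
    Nonempty (Data p) := by
  have hp0 : 0 < p := (Fact.out : p.Prime).pos
  have hpZ : (0 : ℤ) < p := by exact_mod_cast hp0
  exact ⟨{
    A := AE p k r s
    B := BE k r s
    Q := QE p k r s
    Qs := QsE k r s
    A_symm := explicit_AE_symm p k r s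
    B_symm := explicit_BE_symm k r s
    A_mul_B := explicit_AE_mul_BE p k r s h
    two_Q := explicit_two_QE p k r s
    two_Qs := explicit_two_QsE k r s
    Q_pos := explicit_QE_pos p k r s hpZ hk h
    Qs_pos := explicit_QsE_pos p k r s hpZ hk h
    summable_Q := explicit_summable_QE p k r s hpZ hk h
    summable_Qs := explicit_summable_QsE p k r s hpZ hk h
    inv := explicit_inv p hp0 k r s hk h
    gauss := gauss_explicit p hp k r s h hleg }⟩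

end Fermat.Agent.S16.Theta
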