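import Fermat.Agent.S16.Theta.Defs

/-!
# The main relation of the theta family: `Θ_j | S = Θ_{-1/j}` for `j ≢ 0`
-/

set_option autoImplicit false

namespace Fermat.Agent.S16.Theta

open Complex UpperHalfPlane Matrix
open scoped Real MatrixGroups ModularForm

/-! ### The exponential -/

theorem familyS_ee_add (x y : ℂ) : ee (x + y) = ee x * ee y := by
  simp only [ee, mul_add, Complex.exp_add]

theorem familyS_ee_intCast (n : ℤ) : ee (n : ℂ) = 1 := by
  have h := Complex.exp_int_mul_two_pi_mul_I n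
  unfold ee
  rw [← h]
  congr 1
  ring

theorem familyS_norm_ee (x : ℂ) : ‖ee x‖ = Real.exp (-(2 * π) * x.im) := by
  unfold ee
  rw [Complex.norm_exp]
  congr 1
  simp only [Complex.mul_re, Complex.mul_im, Complex.I_re, Complex.I_im, Complex.ofReal_re,
    Complex.ofReal_im, Complex.re_ofNat, Complex.im_ofNat]
  ring

/-- `ε(n) = e(n / p)`. -/
noncomputable def familyS_eps (p : ℕ) (n : ℤ) : ℂ := ee ((n : ℂ) / (p : ℂ))

section Eps

variable {p : ℕ} [Fact p.Prime]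

theorem familyS_p_ne_zero : (p : ℂ) ≠ 0 := by
  exact_mod_cast (Fact.out : p.Prime).ne_zero

theorem familyS_eps_add (n m : ℤ) :
    familyS_eps p (n + m) = familyS_eps p n * familyS_eps p m := by
  unfold familyS_eps
  rw [← familyS_ee_add]
  congr 1
  push_cast
  ring

theorem familyS_eps_mul_p (m : ℤ) : familyS_eps p ((p : ℤ) * m) = 1 := by
  unfold familyS_eps
  rw [← familyS_ee_intCast m]
  congr 1
  push_cast
  field_simp [familyS_p_ne_zero (p := p)]

theorem familyS_eps_congr {n m : ℤ} (h : n ≡ m [ZMOD p]) : familyS_eps p n = familyS_eps p m := by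
  obtain ⟨c, hc⟩ := h.symm.dvd
  have : n = m + (p : ℤ) * c := by omega
  rw [this, familyS_eps_add, familyS_eps_mul_p, mul_one]

theorem familyS_eps_ne_one {n : ℤ} (h : ¬ (p : ℤ) ∣ n) : familyS_eps p n ≠ 1 := by
  intro h1
  unfold familyS_eps ee at h1
  rw [Complex.exp_eq_one_iff] at h1
  obtain ⟨m, hm⟩ := h1
  apply h
  refine ⟨m, ?_⟩
  have hpi : (2 * (π : ℂ) * Complex.I) ≠ 0 := by
    simp [Real.pi_ne_zero]
  have h2 : (n : ℂ) / (p : ℂ) = m := by
    apply mul_left_cancel₀ hpi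
    rw [hm]
    ring
  have h3 : (n : ℂ) = (p : ℂ) * m := by
    rw [← h2]
    field_simp [familyS_p_ne_zero (p := p)]
  exact_mod_cast h3

end Eps

/-! ### Residues -/

section Red

variable {p : ℕ} [Fact p.Prime]

/-- reduction mod `p`. -/
def familyS_red (p : ℕ) (y : V) : Fin 4 → ZMod p := fun i => (y i : ZMod p)

theorem familyS_lift_red (y : V) :
    lift (familyS_red p y) + (p : ℤ) • (fun i => y i / (p : ℤ)) = y := by
  funext i
  simp only [lift, familyS_red, Pi.add_apply, Pi.smul_apply, smul_eq_mul]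
  rw [ZMod.val_intCast]
  exact Int.emod_add_mul_ediv (y i) p

theorem familyS_red_lift_add (d : Fin 4 → ZMod p) (v : V) :
    familyS_red p (lift d + (p : ℤ) • v) = d := by
  funext i
  simp [lift, familyS_red]

theorem familyS_red_add (y c : V) :
    familyS_red p (y + c) = familyS_red p y + familyS_red p c := by
  funext i
  simp [familyS_red]

theorem familyS_red_lift (d : Fin 4 → ZMod p) : familyS_red p (lift d) = d := by
  funext i
  simp [lift, familyS_red]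

/-- the decomposition `ℤ⁴ = (ℤ/p)⁴ × ℤ⁴`. -/
def familyS_equiv (p : ℕ) [Fact p.Prime] : (Fin 4 → ZMod p) × V ≃ V where
  toFun dv := lift dv.1 + (p : ℤ) • dv.2
  invFun y := (familyS_red p y, fun i => y i / (p : ℤ))
  left_inv := by
    rintro ⟨d, v⟩
    have hp : (p : ℤ) ≠ 0 := by exact_mod_cast (Fact.out : p.Prime).ne_zero
    refine Prod.ext (familyS_red_lift_add d v) ?_
    funext i
    simp only [lift, Pi.add_apply, Pi.smul_apply, smul_eq_mul]
    rw [Int.add_mul_ediv_left _ _ hp]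
    have h1 : ((d i).val : ℤ) / (p : ℤ) = 0 := by
      apply Int.ediv_eq_zero_of_lt (by positivity)
      exact_mod_cast ZMod.val_lt (d i)
    rw [h1, zero_add]
  right_inv y := familyS_lift_red y

theorem familyS_tsum_split (F : V → ℂ) (hF : Summable F) :
    ∑' w, F w = ∑ d : Fin 4 → ZMod p, ∑' v : V, F (lift d + (p : ℤ) • v) := by
  rw [← (familyS_equiv p).tsum_eq F]
  have hs : Summable (fun dv : (Fin 4 → ZMod p) × V => F (familyS_equiv p dv)) :=
    (familyS_equiv p).summable_iff.mpr hF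
  rw [hs.tsum_prod, tsum_fintype]
  rfl

/-- the shift lemma. -/
theorem familyS_sum_shift (P : V → ℂ) (hP : ∀ y v : V, P (y + (p : ℤ) • v) = P y) (c : V) :
    ∑ d : Fin 4 → ZMod p, P (lift d + c) = ∑ d : Fin 4 → ZMod p, P (lift d) := by
  have key : ∀ y : V, P y = P (lift (familyS_red p y)) := by
    intro y
    conv_lhs => rw [← familyS_lift_red (p := p) y]
    rw [hP]
  rw [← Equiv.sum_comp (Equiv.addRight (familyS_red p c)) (fun d => P (lift d))]
  refine Finset.sum_congr rfl fun d _ => ?_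
  rw [key (lift d + c), familyS_red_add, familyS_red_lift]
  rfl

end Red

variable {p : ℕ} [Fact p.Prime] (D : Data p)

/-! ### Bilinear algebra -/

theorem familyS_symm {M : Matrix (Fin 4) (Fin 4) ℤ} (hM : Mᵀ = M) (y v : V) :
    v ⬝ᵥ (M *ᵥ y) = y ⬝ᵥ (M *ᵥ v) := by
  rw [Matrix.dotProduct_mulVec, ← Matrix.mulVec_transpose, hM, dotProduct_comm]

theorem familyS_B_mul_A : D.B * D.A = (p : ℤ) • (1 : Matrix (Fin 4) (Fin 4) ℤ) := by
  have h := congrArg Matrix.transpose D.A_mul_B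
  rw [Matrix.transpose_mul, D.A_symm, D.B_symm, Matrix.transpose_smul, Matrix.transpose_one] at h
  exact h

theorem familyS_Qs_add (y v : V) :
    D.Qs (y + v) = D.Qs y + y ⬝ᵥ (D.B *ᵥ v) + D.Qs v := by
  have h1 := D.two_Qs (y + v)
  have h2 := D.two_Qs y
  have h3 := D.two_Qs v
  rw [Matrix.mulVec_add, add_dotProduct, dotProduct_add, dotProduct_add,
    familyS_symm D.B_symm y v] at h1
  omega

theorem familyS_Qs_smul (c : ℤ) (v : V) : D.Qs (c • v) = c ^ 2 * D.Qs v := by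
  have h1 := D.two_Qs (c • v)
  have h3 := D.two_Qs v
  rw [Matrix.mulVec_smul, smul_dotProduct, dotProduct_smul, smul_eq_mul, smul_eq_mul, ← h3] at h1
  have : 2 * D.Qs (c • v) = 2 * (c ^ 2 * D.Qs v) := by rw [h1]; ring
  omega

theorem familyS_Qs_add_p (y v : V) : D.Qs (y + (p : ℤ) • v) ≡ D.Qs y [ZMOD p] := by
  rw [familyS_Qs_add, familyS_Qs_smul, Matrix.mulVec_smul, dotProduct_smul, smul_eq_mul]
  apply Int.ModEq.symm
  rw [Int.modEq_iff_dvd]
  refine ⟨y ⬝ᵥ (D.B *ᵥ v) + (p : ℤ) * D.Qs v, ?_⟩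
  ring

theorem familyS_B_A_mulVec (v : V) : D.B *ᵥ (D.A *ᵥ v) = (p : ℤ) • v := by
  rw [Matrix.mulVec_mulVec, familyS_B_mul_A, Matrix.smul_mulVec, Matrix.one_mulVec]

theorem familyS_A_B_mulVec (v : V) : D.A *ᵥ (D.B *ᵥ v) = (p : ℤ) • v := by
  rw [Matrix.mulVec_mulVec, D.A_mul_B, Matrix.smul_mulVec, Matrix.one_mulVec]

theorem familyS_Qs_A (v : V) : D.Qs (D.A *ᵥ v) = (p : ℤ) * D.Q v := by
  have h1 := D.two_Qs (D.A *ᵥ v)
  have h2 := D.two_Q v
  rw [familyS_B_A_mulVec, dotProduct_smul, smul_eq_mul, dotProduct_comm, ← h2] at h1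
  have : 2 * D.Qs (D.A *ᵥ v) = 2 * ((p : ℤ) * D.Q v) := by rw [h1]; ring
  omega

theorem familyS_Q_B (w : V) : D.Q (D.B *ᵥ w) = (p : ℤ) * D.Qs w := by
  have h1 := D.two_Q (D.B *ᵥ w)
  have h2 := D.two_Qs w
  rw [familyS_A_B_mulVec, dotProduct_smul, smul_eq_mul, dotProduct_comm, ← h2] at h1
  have : 2 * D.Q (D.B *ᵥ w) = 2 * ((p : ℤ) * D.Qs w) := by rw [h1]; ring
  omega

theorem familyS_Qs_add_A (y v : V) :
    D.Qs (y + D.A *ᵥ v) = D.Qs y + (p : ℤ) * (y ⬝ᵥ v) + (p : ℤ) * D.Q v := by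
  rw [familyS_Qs_add, familyS_B_A_mulVec, familyS_Qs_A, dotProduct_smul, smul_eq_mul]

theorem familyS_B_injective : Function.Injective (fun w : V => D.B *ᵥ w) := by
  intro w w' h
  have h1 := congrArg (fun x => D.A *ᵥ x) h
  simp only [familyS_A_B_mulVec] at h1
  have hp : (p : ℤ) ≠ 0 := by exact_mod_cast (Fact.out : p.Prime).ne_zero
  funext i
  have h2 := congrFun h1 i
  simp only [Pi.smul_apply, smul_eq_mul] at h2
  exact mul_left_cancel₀ hp h2

/-! ### The finite Fourier sum -/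

/-- `H(x) = ∑_d ε(j Qs(d) + x·d)`. -/
noncomputable def familyS_H (j : ℤ) (x : V) : ℂ :=
  ∑ d : Fin 4 → ZMod p, familyS_eps p (j * D.Qs (lift d) + x ⬝ᵥ lift d)

theorem familyS_P_periodic (j : ℤ) (x y v : V) :
    familyS_eps p (j * D.Qs (y + (p : ℤ) • v) + x ⬝ᵥ (y + (p : ℤ) • v)) =
      familyS_eps p (j * D.Qs y + x ⬝ᵥ y) := by
  apply familyS_eps_congr
  rw [dotProduct_add, dotProduct_smul, smul_eq_mul]
  have h1 := (familyS_Qs_add_p D y v).mul_left j
  have h2 : x ⬝ᵥ y + (p : ℤ) * (x ⬝ᵥ v) ≡ x ⬝ᵥ y [ZMOD p] := by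
    apply Int.ModEq.symm
    rw [Int.modEq_iff_dvd]
    exact ⟨x ⬝ᵥ v, by ring⟩
  exact h1.add h2

theorem familyS_H_eq_zero (j : ℤ) (x : V) (i : Fin 4) (hi : ¬ (p : ℤ) ∣ (D.A *ᵥ x) i) :
    familyS_H D j x = 0 := by
  have hshift := familyS_sum_shift (p := p)
    (fun y => familyS_eps p (j * D.Qs y + x ⬝ᵥ y)) (familyS_P_periodic D j x)
    (D.A *ᵥ (Pi.single i 1))
  have hterm : ∀ d : Fin 4 → ZMod p,
      familyS_eps p (j * D.Qs (lift d + D.A *ᵥ (Pi.single i 1)) +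
        x ⬝ᵥ (lift d + D.A *ᵥ (Pi.single i 1))) =
      familyS_eps p ((D.A *ᵥ x) i) * familyS_eps p (j * D.Qs (lift d) + x ⬝ᵥ lift d) := by
    intro d
    rw [← familyS_eps_add]
    apply familyS_eps_congr
    rw [familyS_Qs_add_A, dotProduct_add, familyS_symm D.A_symm, single_one_dotProduct]
    apply Int.ModEq.symm
    rw [Int.modEq_iff_dvd]
    refine ⟨j * (lift d ⬝ᵥ Pi.single i 1) + j * D.Q (Pi.single i 1), ?_⟩
    ring
  simp only [hterm] at hshift
  rw [← Finset.mul_sum] at hshift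
  have h1 : (familyS_eps p ((D.A *ᵥ x) i) - 1) * familyS_H D j x = 0 := by
    rw [sub_mul, one_mul, sub_eq_zero]
    exact hshift
  rcases mul_eq_zero.mp h1 with h2 | h2
  · exact absurd (sub_eq_zero.mp h2) (familyS_eps_ne_one hi)
  · exact h2

theorem familyS_H_B {j j' : ℤ} (h : j * j' ≡ 1 [ZMOD p]) (w : V) :
    familyS_H D j (D.B *ᵥ w) = familyS_eps p (-j' * D.Qs w) * (-(p : ℂ) ^ 3) := by
  have hj : ¬ (p : ℤ) ∣ j := by
    intro hd
    have h1 : (p : ℤ) ∣ 1 := by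
      have h2 := h.symm.dvd
      have h3 : (p : ℤ) ∣ j * j' := hd.mul_right j'
      have := (Int.dvd_iff_dvd_of_dvd_sub h2).mp h3
      exact this
    have hp := (Fact.out : p.Prime).one_lt
    have := Int.le_of_dvd one_pos h1
    omega
  have hshift := familyS_sum_shift (p := p)
    (fun y => familyS_eps p (j * D.Qs y + (D.B *ᵥ w) ⬝ᵥ y)) (familyS_P_periodic D j (D.B *ᵥ w))
    ((-j') • w)
  have hterm : ∀ d : Fin 4 → ZMod p,
      familyS_eps p (j * D.Qs (lift d + (-j') • w) + (D.B *ᵥ w) ⬝ᵥ (lift d + (-j') • w)) =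
      familyS_eps p (-j' * D.Qs w) * familyS_eps p (j * D.Qs (lift d)) := by
    intro d
    rw [← familyS_eps_add]
    apply familyS_eps_congr
    obtain ⟨c, hc⟩ := h.symm.dvd
    have h2w := D.two_Qs w
    rw [familyS_Qs_add, familyS_Qs_smul, Matrix.mulVec_smul, dotProduct_smul, dotProduct_add,
      dotProduct_smul, smul_eq_mul, smul_eq_mul, dotProduct_comm (D.B *ᵥ w) w, ← h2w,
      dotProduct_comm (D.B *ᵥ w) (lift d)]
    apply Int.ModEq.symm
    rw [Int.modEq_iff_dvd]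
    refine ⟨-c * (lift d ⬝ᵥ (D.B *ᵥ w)) + c * j' * D.Qs w, ?_⟩
    have hjj : j * j' = 1 + (p : ℤ) * c := by omega
    linear_combination (-(lift d ⬝ᵥ (D.B *ᵥ w)) + j' * D.Qs w) * hjj
  simp only [hterm] at hshift
  rw [← Finset.mul_sum] at hshift
  have hg := D.gauss j hj
  unfold familyS_H
  rw [← hshift]
  congr 1

/-! ### Summability -/

theorem familyS_summable_of_norm {q : V → ℤ}
    (hq : ∀ t : ℝ, 0 < t → Summable fun x : V => Real.exp (-t * (q x : ℝ)))
    {t : ℝ} (ht : 0 < t) (f : V → ℂ) (hf : ∀ x, (f x).im = t * (q x : ℝ)) :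
    Summable fun x => ee (f x) := by
  apply Summable.of_norm
  have h2 : 0 < 2 * π * t := by positivity
  refine (hq (2 * π * t) h2).congr fun x => ?_
  rw [familyS_norm_ee, hf]
  congr 1
  ring

theorem familyS_im_mul_div (a : ℂ) (n : ℤ) (m : ℕ) :
    (a * (n : ℂ) / (m : ℂ)).im = a.im / m * n := by
  have : a * (n : ℂ) / (m : ℂ) = (((n : ℝ) / (m : ℝ) : ℝ) : ℂ) * a := by
    push_cast
    ring
  rw [this, Complex.im_ofReal_mul]
  ring

theorem familyS_im_int_div (n : ℤ) (m : ℕ) : ((n : ℂ) / (m : ℂ)).im = 0 := by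
  have : (n : ℂ) / (m : ℂ) = (((n : ℝ) / (m : ℝ) : ℝ) : ℂ) := by
    push_cast
    ring
  rw [this, Complex.ofReal_im]

/-! ### The key identity -/

theorem familyS_key (ζ : ℂ) (hζ : 0 < ζ.im) {j j' : ℤ} (h : j * j' ≡ 1 [ZMOD p]) :
    ∑' w : V, ee (((-ζ)⁻¹ + (j : ℂ)) * ((D.Qs w : ℤ) : ℂ) / (p : ℂ)) =
      ζ ^ 2 * ∑' w : V, ee ((ζ + ((-j' : ℤ) : ℂ)) * ((D.Qs w : ℤ) : ℂ) / (p : ℂ)) := by
  have hp0 : (p : ℂ) ≠ 0 := familyS_p_ne_zero
  have hppos : (0 : ℝ) < p := by exact_mod_cast (Fact.out : p.Prime).pos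
  have hζ0 : ζ ≠ 0 := by
    rintro rfl
    simp at hζ
  have him : 0 < ((-ζ)⁻¹).im := by
    rw [Complex.inv_im, Complex.neg_im, neg_neg]
    exact div_pos hζ (Complex.normSq_pos.mpr (neg_ne_zero.mpr hζ0))
  -- summability of the left hand side
  have hF : Summable fun w : V => ee (((-ζ)⁻¹ + (j : ℂ)) * ((D.Qs w : ℤ) : ℂ) / (p : ℂ)) := by
    refine familyS_summable_of_norm D.summable_Qs (t := ((-ζ)⁻¹).im / p) (div_pos him hppos) _ ?_
    intro x
    rw [familyS_im_mul_div]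
    simp
  rw [familyS_tsum_split (p := p) _ hF]
  -- each residue class
  have hclass : ∀ d : Fin 4 → ZMod p,
      ∑' v : V, ee (((-ζ)⁻¹ + (j : ℂ)) * ((D.Qs (lift d + (p : ℤ) • v) : ℤ) : ℂ) / (p : ℂ)) =
        -(ζ ^ 2 / (p : ℂ) ^ 3) * ∑' x : V, (familyS_eps p (j * D.Qs (lift d)) *
          ee (ζ * ((D.Q x : ℤ) : ℂ) / (p : ℂ) ^ 2 + ((x ⬝ᵥ lift d : ℤ) : ℂ) / (p : ℂ))) := by
    intro d
    have hterm : ∀ v : V,
        ee (((-ζ)⁻¹ + (j : ℂ)) * ((D.Qs (lift d + (p : ℤ) • v) : ℤ) : ℂ) / (p : ℂ)) =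
          familyS_eps p (j * D.Qs (lift d)) *
            ee (-((D.Qs (lift d + (p : ℤ) • v) : ℤ) : ℂ) / ((p : ℂ) * ζ)) := by
      intro v
      rw [← familyS_eps_congr ((familyS_Qs_add_p D (lift d) v).mul_left j)]
      unfold familyS_eps
      rw [← familyS_ee_add]
      congr 1
      push_cast
      field_simp
      ring
    simp only [hterm]
    rw [tsum_mul_left, D.inv ζ hζ (lift d), tsum_mul_left]
    ring
  simp only [hclass]
  rw [← Finset.mul_sum]
  -- swap the sums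
  have hsum : ∀ d : Fin 4 → ZMod p, Summable fun x : V => (familyS_eps p (j * D.Qs (lift d)) *
          ee (ζ * ((D.Q x : ℤ) : ℂ) / (p : ℂ) ^ 2 + ((x ⬝ᵥ lift d : ℤ) : ℂ) / (p : ℂ))) := by
    intro d
    apply Summable.mul_left
    refine familyS_summable_of_norm D.summable_Q (t := ζ.im / (p ^ 2 : ℕ))
      (div_pos hζ (by
        have : 0 < p ^ 2 := pow_pos (Fact.out : p.Prime).pos 2
        exact_mod_cast this)) _ ?_
    intro x
    rw [Complex.add_im, familyS_im_int_div, add_zero]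
    have := familyS_im_mul_div ζ (D.Q x) (p ^ 2)
    push_cast at this ⊢
    exact this
  rw [← Summable.tsum_finsetSum (fun d _ => hsum d)]
  have hH : ∀ x : V, ∑ d : Fin 4 → ZMod p, (familyS_eps p (j * D.Qs (lift d)) *
          ee (ζ * ((D.Q x : ℤ) : ℂ) / (p : ℂ) ^ 2 + ((x ⬝ᵥ lift d : ℤ) : ℂ) / (p : ℂ))) =
        ee (ζ * ((D.Q x : ℤ) : ℂ) / (p : ℂ) ^ 2) * familyS_H D j x := by
    intro x
    unfold familyS_H
    rw [Finset.mul_sum]
    refine Finset.sum_congr rfl fun d _ => ?_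
    rw [familyS_eps_add, familyS_ee_add]
    unfold familyS_eps
    ring
  simp only [hH]
  -- restrict to the image of `B`
  have hsupp : Function.support
      (fun x : V => ee (ζ * ((D.Q x : ℤ) : ℂ) / (p : ℂ) ^ 2) * familyS_H D j x) ⊆
      Set.range (fun w : V => D.B *ᵥ w) := by
    intro x hx
    have hHx : familyS_H D j x ≠ 0 := right_ne_zero_of_mul hx
    have hdvd : ∀ i, (p : ℤ) ∣ (D.A *ᵥ x) i := by
      intro i
      by_contra hi
      exact hHx (familyS_H_eq_zero D j x i hi)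
    refine ⟨fun i => (D.A *ᵥ x) i / (p : ℤ), ?_⟩
    have hA : D.A *ᵥ x = (p : ℤ) • (fun i => (D.A *ᵥ x) i / (p : ℤ)) := by
      funext i
      simp only [Pi.smul_apply, smul_eq_mul]
      exact (Int.mul_ediv_cancel' (hdvd i)).symm
    have h1 := familyS_B_A_mulVec D x
    rw [hA, Matrix.mulVec_smul] at h1
    have hpz : (p : ℤ) ≠ 0 := by exact_mod_cast (Fact.out : p.Prime).ne_zero
    funext i
    have h2 := congrFun h1 i
    simp only [Pi.smul_apply, smul_eq_mul] at h2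
    exact mul_left_cancel₀ hpz h2
  rw [← (familyS_B_injective D).tsum_eq hsupp]
  have hfin : ∀ w : V, ee (ζ * ((D.Q (D.B *ᵥ w) : ℤ) : ℂ) / (p : ℂ) ^ 2) *
      familyS_H D j (D.B *ᵥ w) =
      (-(p : ℂ) ^ 3) * ee ((ζ + ((-j' : ℤ) : ℂ)) * ((D.Qs w : ℤ) : ℂ) / (p : ℂ)) := by
    intro w
    rw [familyS_H_B D h, familyS_Q_B]
    unfold familyS_eps
    rw [← mul_assoc, ← familyS_ee_add, mul_comm]
    congr 2
    push_cast
    field_simp
  simp only [hfin]
  rw [tsum_mul_left]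
  field_simp

theorem thetaFin_slash_S {j j' : ℤ} (h : j * j' ≡ 1 [ZMOD p]) :
    thetaFin D j ∣[(2 : ℤ)] ModularGroup.S = thetaFin D (-j') := by
  funext z
  rw [SlashInvariantForm.slash_S_apply]
  unfold thetaFin
  have hz0 : (z : ℂ) ≠ 0 := ne_zero z
  have hk := familyS_key D (z : ℂ) z.im_pos h
  have hcoe : ((UpperHalfPlane.mk _ z.im_inv_neg_coe_pos : ℍ) : ℂ) = (-(z : ℂ))⁻¹ := rfl
  rw [hcoe, hk]
  rw [_root_.zpow_neg, zpow_ofNat]
  field_simp

end Fermat.Agent.S16.Theta
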