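import Fermat.Agent.S16.Theta.Defs

/-!
# The easy relations of the theta family: `T`, periodicity in `j`, `Θ_∞ ↔ Θ_0` under `S`
-/

set_option autoImplicit false

namespace Fermat.Agent.S16.Theta

open Complex UpperHalfPlane Matrix
open scoped Real MatrixGroups ModularForm

variable {p : ℕ} [Fact p.Prime] (D : Data p)

theorem FamilyT_ee_add_int (x : ℂ) (n : ℤ) : ee (x + n) = ee x := by
  unfold ee
  rw [mul_add, Complex.exp_add]
  have : cexp (2 * π * Complex.I * n) = 1 := by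
    rw [show (2 * π * Complex.I * n : ℂ) = n * (2 * π * Complex.I) by ring]
    exact Complex.exp_int_mul_two_pi_mul_I n
  rw [this, mul_one]

theorem FamilyT_slash_T_apply (f : ℍ → ℂ) (k : ℤ) (z : ℍ) :
    (f ∣[k] ModularGroup.T) z = f ((1 : ℝ) +ᵥ z) := by
  rw [ModularForm.SL_slash_apply, modular_T_smul, ModularGroup.denom_apply]
  simp [ModularGroup.coe_T]

theorem thetaInf_slash_T : thetaInf D ∣[(2 : ℤ)] ModularGroup.T = thetaInf D := by
  ext z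
  rw [FamilyT_slash_T_apply]
  unfold thetaInf
  refine tsum_congr fun x => ?_
  rw [← FamilyT_ee_add_int ((z : ℂ) * ((D.Q x : ℤ) : ℂ)) (D.Q x)]
  congr 1
  rw [UpperHalfPlane.coe_vadd]
  push_cast
  ring

theorem thetaFin_slash_T (j : ℤ) : thetaFin D j ∣[(2 : ℤ)] ModularGroup.T = thetaFin D (j + 1) := by
  ext z
  rw [FamilyT_slash_T_apply]
  unfold thetaFin
  congr 1
  refine tsum_congr fun x => ?_
  congr 1
  rw [UpperHalfPlane.coe_vadd]
  push_cast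
  ring

theorem thetaFin_congr {j j' : ℤ} (h : j ≡ j' [ZMOD p]) : thetaFin D j = thetaFin D j' := by
  obtain ⟨m, hm⟩ := h.symm.dvd
  have hp : (p : ℂ) ≠ 0 := Nat.cast_ne_zero.mpr (Fact.out : p.Prime).ne_zero
  have hj : j = j' + p * m := by linarith
  ext z
  unfold thetaFin
  congr 1
  refine tsum_congr fun x => ?_
  rw [← FamilyT_ee_add_int (((z : ℂ) + (j' : ℂ)) * ((D.Qs x : ℤ) : ℂ) / (p : ℂ)) (m * D.Qs x), hj]
  congr 1
  push_cast
  field_simp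
  ring

theorem FamilyT_Qs_smul (v : V) : D.Qs ((p : ℤ) • v) = (p : ℤ) ^ 2 * D.Qs v := by
  have h1 := D.two_Qs ((p : ℤ) • v)
  have h2 := D.two_Qs v
  rw [Matrix.mulVec_smul, dotProduct_smul, smul_dotProduct, smul_eq_mul, smul_eq_mul, ← h2] at h1
  linarith

theorem thetaInf_slash_S : thetaInf D ∣[(2 : ℤ)] ModularGroup.S = thetaFin D 0 := by
  ext z
  have hp : (p : ℂ) ≠ 0 := Nat.cast_ne_zero.mpr (Fact.out : p.Prime).ne_zero
  have hz : (z : ℂ) ≠ 0 := z.ne_zero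
  rw [SlashInvariantForm.slash_S_apply]
  have him : 0 < (-(p : ℂ) ^ 2 / (z : ℂ)).im := by
    have h1 : (-(p : ℂ) ^ 2 / (z : ℂ)) = ((p : ℝ) ^ 2 : ℝ) * (-(z : ℂ))⁻¹ := by
      push_cast
      field_simp
    rw [h1, Complex.im_ofReal_mul]
    have hp' : (0 : ℝ) < (p : ℝ) ^ 2 := by
      have : (0 : ℝ) < p := Nat.cast_pos.mpr (Fact.out : p.Prime).pos
      positivity
    exact mul_pos hp' z.im_inv_neg_coe_pos
  have key := D.inv (-(p : ℂ) ^ 2 / (z : ℂ)) him 0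
  have hL : ∀ v : V, ee (-((D.Qs (0 + (p : ℤ) • v) : ℤ) : ℂ) / ((p : ℂ) * (-(p : ℂ) ^ 2 / (z : ℂ))))
      = ee (((z : ℂ) + ((0 : ℤ) : ℂ)) * ((D.Qs v : ℤ) : ℂ) / (p : ℂ)) := by
    intro v
    rw [zero_add, FamilyT_Qs_smul]
    congr 1
    push_cast
    field_simp
    ring
  have hR : ∀ x : V, ee (-(p : ℂ) ^ 2 / (z : ℂ) * ((D.Q x : ℤ) : ℂ) / (p : ℂ) ^ 2
        + ((x ⬝ᵥ (0 : V) : ℤ) : ℂ) / (p : ℂ))
      = ee (((UpperHalfPlane.mk _ z.im_inv_neg_coe_pos : ℍ) : ℂ) * ((D.Q x : ℤ) : ℂ)) := by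
    intro x
    congr 1
    rw [dotProduct_zero]
    simp only [Int.cast_zero, zero_div, add_zero]
    field_simp
  rw [tsum_congr hL, tsum_congr hR] at key
  unfold thetaInf thetaFin
  rw [key]
  rw [_root_.zpow_neg, zpow_ofNat]
  field_simp

theorem thetaFin_zero_slash_S : thetaFin D 0 ∣[(2 : ℤ)] ModularGroup.S = thetaInf D := by
  rw [← thetaInf_slash_S]
  ext z
  have hz : (z : ℂ) ≠ 0 := z.ne_zero
  rw [SlashInvariantForm.slash_S_apply, SlashInvariantForm.slash_S_apply]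
  have h1 : (UpperHalfPlane.mk _
      (UpperHalfPlane.mk _ z.im_inv_neg_coe_pos : ℍ).im_inv_neg_coe_pos : ℍ) = z := by
    ext
    change (-(-(z : ℂ))⁻¹)⁻¹ = z
    field_simp
  rw [h1]
  change thetaInf D z * ((-(z : ℂ))⁻¹) ^ (-(2 : ℤ)) * (z : ℂ) ^ (-(2 : ℤ)) = _
  rw [_root_.zpow_neg, _root_.zpow_neg, zpow_ofNat, zpow_ofNat]
  field_simp

end Fermat.Agent.S16.Theta
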