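import Mathlib

/-!
# Existence of the parameters `k r s`
-/

set_option autoImplicit false

namespace Fermat.Agent.S16.Theta

/-- a prime `q ≡ 3 mod 4`, `q ≠ p`, with `-q` a non-residue mod `p`. -/
lemma params_exists_prime (p : ℕ) [Fact p.Prime] (hp : p ≠ 2) :
    ∃ q : ℕ, q.Prime ∧ q % 4 = 3 ∧ q ≠ p ∧ legendreSym p (-(q : ℤ)) = -1 := by
  have hpp : p.Prime := Fact.out
  obtain ⟨n, hn⟩ : ∃ n : ZMod p, ¬ IsSquare n :=
    FiniteField.exists_nonsquare (by rw [ZMod.ringChar_zmod_n]; exact hp)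
  have hn0 : n ≠ 0 := by
    rintro rfl
    exact hn (IsSquare.zero)
  have hco : Nat.Coprime 4 p := by
    have : Nat.Coprime 2 p := (Nat.coprime_primes Nat.prime_two hpp).mpr (Ne.symm hp)
    exact Nat.Coprime.pow_left 2 this
  obtain ⟨u, hu4, hup⟩ := Nat.chineseRemainder hco 3 (-n).val
  have hup' : (u : ZMod p) = -n := by
    have := (ZMod.natCast_eq_natCast_iff u (-n).val p).2 hup
    rwa [ZMod.natCast_zmod_val] at this
  have hcop : Nat.Coprime u (4 * p) := by
    apply Nat.Coprime.mul_right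
    · have h2 : Nat.Coprime u 2 := by
        rw [Nat.coprime_two_right, Nat.odd_iff]
        have : u % 4 = 3 := hu4
        omega
      exact Nat.Coprime.pow_right 2 h2
    · rw [Nat.coprime_comm, Nat.Prime.coprime_iff_not_dvd hpp]
      intro hd
      have : (u : ZMod p) = 0 := (ZMod.natCast_eq_zero_iff u p).2 hd
      rw [hup', neg_eq_zero] at this
      exact hn0 this
  have : NeZero (4 * p) := ⟨by have := hpp.pos; omega⟩
  obtain ⟨q, hqp, hq, hqu⟩ := Nat.forall_exists_prime_gt_and_eq_mod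
    ((ZMod.isUnit_iff_coprime u (4 * p)).2 hcop) p
  have hmod : q ≡ u [MOD 4 * p] := (ZMod.natCast_eq_natCast_iff q u (4 * p)).1 hqu
  have hq4 : q % 4 = 3 := (hmod.of_mul_right p).trans hu4
  have hqp' : (q : ZMod p) = -n := by
    rw [← hup']
    exact (ZMod.natCast_eq_natCast_iff q u p).2 (hmod.of_mul_left 4)
  refine ⟨q, hq, hq4, hqp.ne', ?_⟩
  rw [legendreSym.eq_neg_one_iff]
  push_cast
  rw [hqp', neg_neg]
  exact hn

lemma params_legendre (p q : ℕ) [Fact p.Prime] [Fact q.Prime] (hp : p ≠ 2) (hq4 : q % 4 = 3)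
    (hqp : q ≠ p) (h : legendreSym p (-(q : ℤ)) = -1) : legendreSym q (-(p : ℤ)) = 1 := by
  have hpp : p.Prime := Fact.out
  have hq2 : q ≠ 2 := by rintro rfl; omega
  have e1 : legendreSym p (-(q : ℤ)) = legendreSym p (-1) * legendreSym p q := by
    rw [← legendreSym.mul]; congr 1; ring
  have e2 : legendreSym q (-(p : ℤ)) = legendreSym q (-1) * legendreSym q p := by
    rw [← legendreSym.mul]; congr 1; ring
  have hq1 : legendreSym q (-1) = -1 := by
    rw [legendreSym.at_neg_one hq2, ZMod.χ₄_nat_three_mod_four hq4]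
  rw [e2, hq1]
  rw [e1] at h
  have hodd : p % 2 = 1 := hpp.eq_two_or_odd.resolve_left hp
  have h4 : p % 4 = 1 ∨ p % 4 = 3 := by omega
  rcases h4 with h4 | h4
  · have hp1 : legendreSym p (-1) = 1 := by
      rw [legendreSym.at_neg_one hp, ZMod.χ₄_nat_one_mod_four h4]
    rw [hp1, one_mul] at h
    rw [legendreSym.quadratic_reciprocity_one_mod_four h4 hq2, h]
    norm_num
  · have hp1 : legendreSym p (-1) = -1 := by
      rw [legendreSym.at_neg_one hp, ZMod.χ₄_nat_three_mod_four h4]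
    rw [hp1] at h
    rw [legendreSym.quadratic_reciprocity_three_mod_four h4 hq4]
    linarith

theorem exists_params (p : ℕ) [Fact p.Prime] (hp : p ≠ 2) :
    ∃ k r s : ℤ, 0 < k ∧ (4 * k - 1) * s = r ^ 2 + p ∧ legendreSym p (-(4 * k - 1)) = -1 := by
  have hpp : p.Prime := Fact.out
  obtain ⟨q, hq, hq4, hqp, hleg⟩ := params_exists_prime p hp
  have : Fact q.Prime := ⟨hq⟩
  have h1 := params_legendre p q hp hq4 hqp hleg
  have h0 : ((-(p : ℤ) : ℤ) : ZMod q) ≠ 0 := by
    push_cast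
    rw [neg_ne_zero, Ne, ZMod.natCast_eq_zero_iff]
    intro hd
    exact hqp ((Nat.prime_dvd_prime_iff_eq hq hpp).1 hd)
  rw [legendreSym.eq_one_iff q h0] at h1
  obtain ⟨r₀, hr₀⟩ := h1
  have hdvd : (q : ℤ) ∣ (r₀.val : ℤ) ^ 2 + p := by
    rw [← ZMod.intCast_zmod_eq_zero_iff_dvd]
    push_cast at hr₀ ⊢
    rw [ZMod.natCast_zmod_val, sq, ← hr₀]
    ring
  obtain ⟨s, hs⟩ := hdvd
  have hk : (4 * (((q + 1) / 4 : ℕ) : ℤ) - 1) = q := by
    have : 4 * ((q + 1) / 4) = q + 1 := by omega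
    have h' : (4 * (((q + 1) / 4 : ℕ) : ℤ)) = (q : ℤ) + 1 := by exact_mod_cast this
    rw [h']; ring
  refine ⟨((q + 1) / 4 : ℕ), r₀.val, s, ?_, ?_, ?_⟩
  · have : 0 < (q + 1) / 4 := by omega
    exact_mod_cast this
  · rw [hk, ← hs]
  · rw [hk]; exact hleg

end Fermat.Agent.S16.Theta
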