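import Fermat.Agent.S16.Theta.Modular
import Fermat.Agent.S16.Theta.Explicit
import Fermat.Agent.S16.Theta.Params

/-!
# Final deliverable of the theta route
-/

set_option autoImplicit false

namespace Fermat.Agent.S16.Theta

/-- For every odd prime `p` there is `Θ ∈ M₂(Γ₀(p))` with `a₀ = 1` and `a_m ∈ 2ℤ` for `m ≥ 1`. -/
theorem exists_theta (p : ℕ) [Fact p.Prime] (hp : p ≠ 2) :
    ∃ Θ : ModularForm (CongruenceSubgroup.Gamma0 p) 2,
      (UpperHalfPlane.qExpansion 1 Θ).coeff 0 = 1 ∧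
      ∀ m : ℕ, 1 ≤ m → ∃ c : ℤ, (UpperHalfPlane.qExpansion 1 Θ).coeff m = 2 * (c : ℂ) := by
  obtain ⟨k, r, s, hk, h, hleg⟩ := exists_params p hp
  obtain ⟨D⟩ := nonempty_data p hp k r s hk h hleg
  exact exists_theta_of_data D

end Fermat.Agent.S16.Theta
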