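import Fermat.Agent.S16.Theta.Defs
import Fermat.Agent.S24.ConvLaurent

/-!
# q-expansions, holomorphy, boundedness of the theta family
-/

set_option autoImplicit false

namespace Fermat.Agent.S16.Theta

open Complex UpperHalfPlane Matrix
open scoped Real MatrixGroups ModularForm Manifold

variable {p : ℕ} [Fact p.Prime] (D : Data p)

theorem QExp_norm_ee (x : ℂ) : ‖ee x‖ = Real.exp (-(2 * π) * x.im) := by
  rw [ee, Complex.norm_exp]
  congr 1
  simp

theorem QExp_Q_zero : D.Q 0 = 0 := by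
  have := D.two_Q 0
  simpa using this

theorem QExp_Q_nonneg (x : V) : 0 ≤ D.Q x := by
  by_cases hx : x = 0
  · rw [hx, QExp_Q_zero]
  · exact (D.Q_pos x hx).le

theorem QExp_Qs_zero : D.Qs 0 = 0 := by
  have := D.two_Qs 0
  simpa using this

theorem QExp_Qs_nonneg (x : V) : 0 ≤ D.Qs x := by
  by_cases hx : x = 0
  · rw [hx, QExp_Qs_zero]
  · exact (D.Qs_pos x hx).le

theorem QExp_Q_neg (x : V) : D.Q (-x) = D.Q x := by
  have h1 := D.two_Q (-x)
  have h2 := D.two_Q x
  rw [Matrix.mulVec_neg, neg_dotProduct_neg] at h1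
  omega

theorem QExp_Q_eq_zero_iff (x : V) : D.Q x = 0 ↔ x = 0 := by
  constructor
  · intro h
    by_contra hx
    exact absurd h (D.Q_pos x hx).ne'
  · rintro rfl
    exact QExp_Q_zero D

theorem QExp_ee_eq_pow (z : ℍ) (x : V) :
    ee ((z : ℂ) * ((D.Q x : ℤ) : ℂ)) = Function.Periodic.qParam 1 z ^ (D.Q x).toNat := by
  have h : ((D.Q x : ℤ) : ℂ) = (((D.Q x).toNat : ℕ) : ℂ) := by
    have := Int.toNat_of_nonneg (QExp_Q_nonneg D x)
    exact_mod_cast this.symm
  rw [ee, Function.Periodic.qParam, ← Complex.exp_nat_mul, h]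
  congr 1
  simp only [ofReal_one, div_one]
  ring

theorem QExp_summable_norm (z : ℍ) : Summable fun x : V => ‖ee ((z : ℂ) * ((D.Q x : ℤ) : ℂ))‖ := by
  have h := D.summable_Q (2 * π * z.im) (by have := z.im_pos; positivity)
  refine h.congr fun x => ?_
  rw [QExp_norm_ee]
  congr 1
  simp
  ring

theorem QExp_hasSum (z : ℍ) :
    HasSum (fun x : V => ee ((z : ℂ) * ((D.Q x : ℤ) : ℂ))) (thetaInf D z) :=
  (QExp_summable_norm D z).of_norm.hasSum

theorem hasSum_thetaInf (z : ℍ) :
    HasSum (fun m : ℕ => (Nat.card {x : V // D.Q x = (m : ℤ)} : ℂ) • Function.Periodic.qParam 1 z ^ m)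
      (thetaInf D z) := by
  have h := (QExp_hasSum D z).tsum_fiberwise (fun x : V => (D.Q x).toNat)
  refine h.congr_fun fun m => ?_
  have h1 : ∀ b : ((fun x : V => (D.Q x).toNat) ⁻¹' {m}),
      ee ((z : ℂ) * ((D.Q (b : V) : ℤ) : ℂ)) = Function.Periodic.qParam 1 z ^ m := by
    rintro ⟨b, hb⟩
    rw [QExp_ee_eq_pow]
    congr 1
  rw [tsum_congr h1, tsum_const, nsmul_eq_mul, smul_eq_mul]
  congr 2
  refine Nat.card_congr (Equiv.subtypeEquivRight fun x => ?_)
  have := QExp_Q_nonneg D x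
  simp only [Set.mem_preimage, Set.mem_singleton_iff]
  omega

theorem card_Q_zero : Nat.card {x : V // D.Q x = ((0 : ℕ) : ℤ)} = 1 := by
  rw [Nat.card_eq_one_iff_unique]
  refine ⟨⟨?_⟩, ⟨⟨0, by simpa using QExp_Q_zero D⟩⟩⟩
  rintro ⟨a, ha⟩ ⟨b, hb⟩
  have ha' : a = 0 := (QExp_Q_eq_zero_iff D a).mp (by simpa using ha)
  have hb' : b = 0 := (QExp_Q_eq_zero_iff D b).mp (by simpa using hb)
  simp [ha', hb']

theorem even_card_Q (m : ℕ) (hm : 1 ≤ m) : Even (Nat.card {x : V // D.Q x = (m : ℤ)}) := by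
  classical
  rcases finite_or_infinite {x : V // D.Q x = (m : ℤ)} with hfin | hinf
  swap
  · simp [Nat.card_eq_zero_of_infinite]
  have := Fintype.ofFinite {x : V // D.Q x = (m : ℤ)}
  let σ : Equiv.Perm {x : V // D.Q x = (m : ℤ)} :=
    { toFun := fun x => ⟨-x.1, by rw [QExp_Q_neg]; exact x.2⟩
      invFun := fun x => ⟨-x.1, by rw [QExp_Q_neg]; exact x.2⟩
      left_inv := fun x => by simp
      right_inv := fun x => by simp }
  have hσ : σ ^ 2 = 1 := by
    ext x
    simp [σ, sq]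
  have hsupp : σ.support = Finset.univ := by
    ext x
    simp only [Equiv.Perm.mem_support, Finset.mem_univ, iff_true]
    intro h
    have h1 : -x.1 = x.1 := congrArg Subtype.val h
    have h2 : x.1 = 0 := by
      funext i
      have := congrFun h1 i
      simp only [Pi.neg_apply, Pi.zero_apply] at this ⊢
      omega
    have h3 := x.2
    rw [h2, QExp_Q_zero] at h3
    omega
  have h2 := Equiv.Perm.two_dvd_card_support hσ
  rw [hsupp, Finset.card_univ] at h2
  rw [Nat.card_eq_fintype_card]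
  exact even_iff_two_dvd.mpr h2

theorem isBoundedAtImInfty_thetaInf : IsBoundedAtImInfty (thetaInf D) :=
  isBoundedAtImInfty_of_hasSum_qExpansion one_pos (hasSum_thetaInf D)

theorem mdiff_thetaInf : MDiff (thetaInf D) := by
  set c : ℕ → ℂ := fun m => (Nat.card {x : V // D.Q x = (m : ℤ)} : ℂ) with hc
  have hs : ∀ q : ℂ, q ≠ 0 → ‖q‖ < 1 → Summable (fun m : ℕ => c m * q ^ m) := by
    intro q hq hq1
    have him := Function.Periodic.im_invQParam_pos_of_norm_lt_one one_pos hq1 hq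
    have h := (hasSum_thetaInf D ⟨Function.Periodic.invQParam 1 q, him⟩).summable
    simp only [Function.Periodic.qParam_right_inv one_ne_zero hq, smul_eq_mul] at h
    exact h
  have hg := Fermat.Agent.S24.hasFPowerSeriesOnBall_of_summable hs
  have hg' : DifferentiableOn ℂ (fun q => ∑' m : ℕ, c m * q ^ m) (Metric.ball 0 1) := by
    have := hg.differentiableOn
    simpa [← ENNReal.coe_one, Metric.eball_coe] using this
  rw [UpperHalfPlane.mdifferentiable_iff]
  have h1 : DifferentiableOn ℂ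
      ((fun q => ∑' m : ℕ, c m * q ^ m) ∘ (Function.Periodic.qParam 1)) {z | 0 < z.im} := by
    refine hg'.comp (fun z _ =>
      (Function.Periodic.differentiable_qParam z).differentiableWithinAt) ?_
    intro z hz
    simpa using Function.Periodic.norm_qParam_lt_one one_pos hz
  refine h1.congr fun z hz => ?_
  simp only [Function.comp_apply, ofComplex_apply_of_im_pos hz]
  have := (hasSum_thetaInf D ⟨z, hz⟩).tsum_eq
  simp only [smul_eq_mul] at this
  exact this.symm

theorem isBoundedAtImInfty_thetaFin (j : ℤ) : IsBoundedAtImInfty (thetaFin D j) := by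
  have hp0 : (0 : ℝ) < p := by exact_mod_cast (Fact.out : p.Prime).pos
  rw [isBoundedAtImInfty_iff]
  refine ⟨‖-(1 / (p : ℂ))‖ * ∑' w : V, Real.exp (-(2 * π / p) * (D.Qs w : ℝ)), 1, fun z hz => ?_⟩
  rw [thetaFin, norm_mul]
  gcongr
  have hnorm : ∀ w : V, ‖ee (((z : ℂ) + (j : ℂ)) * ((D.Qs w : ℤ) : ℂ) / (p : ℂ))‖ =
      Real.exp (-(2 * π * z.im / p) * (D.Qs w : ℝ)) := by
    intro w
    rw [QExp_norm_ee, Complex.div_natCast_im]
    congr 1
    simp
    ring
  have hs1 : Summable fun w : V => ‖ee (((z : ℂ) + (j : ℂ)) * ((D.Qs w : ℤ) : ℂ) / (p : ℂ))‖ := by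
    simp only [hnorm]
    exact D.summable_Qs (2 * π * z.im / p) (by have := z.im_pos; positivity)
  have hs2 := D.summable_Qs (2 * π / p) (by positivity)
  refine (norm_tsum_le_tsum_norm hs1).trans (hs1.tsum_le_tsum (fun w => ?_) hs2)
  rw [hnorm]
  apply Real.exp_le_exp.mpr
  have hQ : (0 : ℝ) ≤ (D.Qs w : ℝ) := by exact_mod_cast QExp_Qs_nonneg D w
  have h2 : 2 * π / p ≤ 2 * π * z.im / p := by
    apply div_le_div_of_nonneg_right _ hp0.le
    have := Real.pi_pos
    nlinarith
  nlinarith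

end Fermat.Agent.S16.Theta
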