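import Fermat.Agent.S16.Theta.FamilyT
import Fermat.Agent.S16.Theta.FamilyS
import Fermat.Agent.S16.Theta.QExp

/-!
# `Θ_∞` is a modular form of weight 2 on `Γ₀(p)`
-/

set_option autoImplicit false

namespace Fermat.Agent.S16.Theta

open Complex UpperHalfPlane Matrix
open scoped Real MatrixGroups ModularForm

variable {p : ℕ} [Fact p.Prime] (D : Data p)

theorem modular_slash_inv {F G : ℍ → ℂ} {g : SL(2, ℤ)} (h : F ∣[(2 : ℤ)] g = G) :
    G ∣[(2 : ℤ)] g⁻¹ = F := by
  rw [← h, ← SlashAction.slash_mul, mul_inv_cancel, SlashAction.slash_one]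

theorem modular_thetaFin_cast {j j' : ℤ} (h : (j : ZMod p) = (j' : ZMod p)) :
    thetaFin D j = thetaFin D j' :=
  thetaFin_congr D ((ZMod.intCast_eq_intCast_iff _ _ _).1 h)

theorem modular_thetaFin_slash_S {j j' : ℤ} (h : (j : ZMod p) * (j' : ZMod p) = 1) :
    thetaFin D j ∣[(2 : ℤ)] ModularGroup.S = thetaFin D (-j') := by
  apply thetaFin_slash_S D
  apply (ZMod.intCast_eq_intCast_iff _ _ _).1
  push_cast
  exact h

/-- `F` is the member of the family attached to the point `(c : d)` of `ℙ¹(𝔽_p)`. -/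
def ModularRel (F : ℍ → ℂ) (c d : ZMod p) : Prop :=
  (c = 0 → F = thetaInf D) ∧ ∀ j : ℤ, c ≠ 0 → (j : ZMod p) * c = d → F = thetaFin D j

theorem modular_exists_j {c : ZMod p} (d : ZMod p) (hc : c ≠ 0) :
    ∃ j : ℤ, (j : ZMod p) * c = d := by
  obtain ⟨j, hj⟩ := ZMod.intCast_surjective (d * c⁻¹)
  exact ⟨j, by rw [hj, mul_assoc, inv_mul_cancel₀ hc, mul_one]⟩

variable {D}

theorem ModularRel.slash_T {F : ℍ → ℂ} {c d : ZMod p} (h : ModularRel D F c d) :
    ModularRel D (F ∣[(2 : ℤ)] ModularGroup.T) c (c + d) := by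
  refine ⟨fun hc => ?_, fun j hc hj => ?_⟩
  · rw [h.1 hc, thetaInf_slash_T]
  · have : F = thetaFin D (j - 1) := h.2 (j - 1) hc (by push_cast; linear_combination hj)
    rw [this, thetaFin_slash_T, sub_add_cancel]

theorem ModularRel.slash_T_inv {F : ℍ → ℂ} {c d : ZMod p} (h : ModularRel D F c d) :
    ModularRel D (F ∣[(2 : ℤ)] ModularGroup.T⁻¹) c (d - c) := by
  refine ⟨fun hc => ?_, fun j hc hj => ?_⟩
  · rw [h.1 hc]
    exact modular_slash_inv (thetaInf_slash_T D)
  · have : F = thetaFin D (j + 1) := h.2 (j + 1) hc (by push_cast; linear_combination hj)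
    rw [this]
    exact modular_slash_inv (thetaFin_slash_T D j)

theorem ModularRel.slash_S {F : ℍ → ℂ} {c d : ZMod p} (h : ModularRel D F c d)
    (hcd : c ≠ 0 ∨ d ≠ 0) : ModularRel D (F ∣[(2 : ℤ)] ModularGroup.S) d (-c) := by
  refine ⟨fun hd => ?_, fun j hd hj => ?_⟩
  · have hc : c ≠ 0 := hcd.resolve_right (not_not.2 hd)
    have : F = thetaFin D 0 := h.2 0 hc (by simp [hd])
    rw [this, thetaFin_zero_slash_S]
  · by_cases hc : c = 0
    · rw [h.1 hc, thetaInf_slash_S]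
      apply modular_thetaFin_cast
      have : (j : ZMod p) = 0 := by
        rw [hc, neg_zero] at hj
        exact (mul_eq_zero.1 hj).resolve_right hd
      rw [this, Int.cast_zero]
    · obtain ⟨i, hi⟩ := modular_exists_j d hc
      rw [h.2 i hc hi]
      have h1 : (i : ZMod p) * ((-j : ℤ) : ZMod p) = 1 := by
        have : ((i : ZMod p) * ((-j : ℤ) : ZMod p) - 1) * c = 0 := by
          push_cast
          rw [← hi] at hj
          linear_combination -hj
        rcases mul_eq_zero.1 this with h0 | h0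
        · exact sub_eq_zero.1 h0
        · exact absurd h0 hc
      rw [modular_thetaFin_slash_S D h1, neg_neg]

theorem ModularRel.slash_S_inv {F : ℍ → ℂ} {c d : ZMod p} (h : ModularRel D F c d)
    (hcd : c ≠ 0 ∨ d ≠ 0) : ModularRel D (F ∣[(2 : ℤ)] ModularGroup.S⁻¹) (-d) c := by
  refine ⟨fun hd => ?_, fun j hd hj => ?_⟩
  · have hd' : d = 0 := neg_eq_zero.1 hd
    have hc : c ≠ 0 := hcd.resolve_right (not_not.2 hd')
    have : F = thetaFin D 0 := h.2 0 hc (by simp [hd'])
    rw [this]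
    exact modular_slash_inv (thetaInf_slash_S D)
  · have hd' : d ≠ 0 := fun h0 => hd (by rw [h0, neg_zero])
    by_cases hc : c = 0
    · rw [h.1 hc, modular_slash_inv (thetaFin_zero_slash_S D)]
      apply modular_thetaFin_cast
      have : (j : ZMod p) = 0 := by
        rw [hc] at hj
        exact (mul_eq_zero.1 hj).resolve_right hd
      rw [this, Int.cast_zero]
    · obtain ⟨i, hi⟩ := modular_exists_j d hc
      rw [h.2 i hc hi]
      have h1 : (j : ZMod p) * ((-i : ℤ) : ZMod p) = 1 := by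
        have : ((j : ZMod p) * ((-i : ℤ) : ZMod p) - 1) * c = 0 := by
          push_cast
          rw [← hi] at hj
          linear_combination hj
        rcases mul_eq_zero.1 this with h0 | h0
        · exact sub_eq_zero.1 h0
        · exact absurd h0 hc
      have h2 := modular_thetaFin_slash_S D h1
      rw [neg_neg] at h2
      exact modular_slash_inv h2

theorem modular_bottom_ne (γ : SL(2, ℤ)) :
    ((γ 1 0 : ℤ) : ZMod p) ≠ 0 ∨ ((γ 1 1 : ℤ) : ZMod p) ≠ 0 := by
  by_contra hcon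
  push Not at hcon
  have hdet : γ 0 0 * γ 1 1 - γ 0 1 * γ 1 0 = 1 := by
    have := γ.det_coe
    rwa [Matrix.det_fin_two] at this
  have : ((γ 0 0 * γ 1 1 - γ 0 1 * γ 1 0 : ℤ) : ZMod p) = 1 := by rw [hdet, Int.cast_one]
  push_cast at this
  rw [hcon.1, hcon.2] at this
  simp at this

theorem modular_mul_S (x : SL(2, ℤ)) :
    (x * ModularGroup.S) 1 0 = x 1 1 ∧ (x * ModularGroup.S) 1 1 = - x 1 0 := by
  constructor <;>
  simp [Matrix.SpecialLinearGroup.coe_mul, ModularGroup.coe_S, Matrix.mul_apply, Fin.sum_univ_two]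

theorem modular_mul_T (x : SL(2, ℤ)) :
    (x * ModularGroup.T) 1 0 = x 1 0 ∧ (x * ModularGroup.T) 1 1 = x 1 0 + x 1 1 := by
  constructor <;>
  simp [Matrix.SpecialLinearGroup.coe_mul, ModularGroup.coe_T, Matrix.mul_apply, Fin.sum_univ_two]

theorem modular_mul_T_inv (x : SL(2, ℤ)) :
    (x * ModularGroup.T⁻¹) 1 0 = x 1 0 ∧ (x * ModularGroup.T⁻¹) 1 1 = x 1 1 - x 1 0 := by
  constructor <;>
  simp [Matrix.SpecialLinearGroup.coe_mul, Matrix.mul_apply, Fin.sum_univ_two]
  ring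

theorem modular_mul_S_inv (x : SL(2, ℤ)) :
    (x * ModularGroup.S⁻¹) 1 0 = - x 1 1 ∧ (x * ModularGroup.S⁻¹) 1 1 = x 1 0 := by
  constructor <;>
  simp [Matrix.SpecialLinearGroup.coe_mul, Matrix.SpecialLinearGroup.coe_inv, ModularGroup.coe_S,
    Matrix.adjugate_fin_two, Matrix.mul_apply, Fin.sum_univ_two]

variable (D)

theorem modularRel_slash (γ : SL(2, ℤ)) :
    ModularRel D (thetaInf D ∣[(2 : ℤ)] γ) ((γ 1 0 : ℤ) : ZMod p) ((γ 1 1 : ℤ) : ZMod p) := by
  have hγ : γ ∈ Subgroup.closure ({ModularGroup.S, ModularGroup.T} : Set SL(2, ℤ)) := by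
    rw [SpecialLinearGroup.SL2Z_generators]; trivial
  induction hγ using Subgroup.closure_induction_right with
  | one =>
    refine ⟨fun _ => SlashAction.slash_one _ _, fun j hc _ => absurd ?_ hc⟩
    simp
  | mul_right x hx y hy ih =>
    rw [SlashAction.slash_mul]
    rcases hy with rfl | rfl
    · have := ih.slash_S (modular_bottom_ne x)
      rw [(modular_mul_S x).1, (modular_mul_S x).2]
      push_cast
      exact this
    · have := ih.slash_T
      rw [(modular_mul_T x).1, (modular_mul_T x).2]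
      push_cast
      exact this
  | mul_inv_cancel x hx y hy ih =>
    rw [SlashAction.slash_mul]
    rcases hy with rfl | rfl
    · have := ih.slash_S_inv (modular_bottom_ne x)
      rw [(modular_mul_S_inv x).1, (modular_mul_S_inv x).2]
      push_cast
      exact this
    · have := ih.slash_T_inv
      rw [(modular_mul_T_inv x).1, (modular_mul_T_inv x).2]
      push_cast
      exact this

/-- `Θ_∞ | γ = Θ_{(c:d)}`. -/
theorem thetaInf_slash (γ : SL(2, ℤ)) :
    ((p : ℤ) ∣ γ 1 0 → thetaInf D ∣[(2 : ℤ)] γ = thetaInf D) ∧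
    (∀ j : ℤ, ¬ (p : ℤ) ∣ γ 1 0 → j * γ 1 0 ≡ γ 1 1 [ZMOD p] →
      thetaInf D ∣[(2 : ℤ)] γ = thetaFin D j) := by
  have h := modularRel_slash D γ
  refine ⟨fun hc => h.1 ((ZMod.intCast_zmod_eq_zero_iff_dvd _ _).2 hc), fun j hc hj => ?_⟩
  refine h.2 j (fun h0 => hc ((ZMod.intCast_zmod_eq_zero_iff_dvd _ _).1 h0)) ?_
  have := (ZMod.intCast_eq_intCast_iff _ _ _).2 hj
  push_cast at this
  exact this

theorem isMF_thetaInf : ES.IsMF (CongruenceSubgroup.Gamma0 p) 2 (thetaInf D) := by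
  refine ⟨mdiff_thetaInf D, fun γ hγ => ?_, fun γ => ?_⟩
  · rw [CongruenceSubgroup.Gamma0_mem] at hγ
    exact (modularRel_slash D γ).1 hγ
  · by_cases hc : ((γ 1 0 : ℤ) : ZMod p) = 0
    · rw [(modularRel_slash D γ).1 hc]
      exact isBoundedAtImInfty_thetaInf D
    · obtain ⟨j, hj⟩ := modular_exists_j ((γ 1 1 : ℤ) : ZMod p) hc
      rw [(modularRel_slash D γ).2 j hc hj]
      exact isBoundedAtImInfty_thetaFin D j

theorem exists_theta_of_data (D : Data p) :
    ∃ Θ : ModularForm (CongruenceSubgroup.Gamma0 p) 2,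
      (UpperHalfPlane.qExpansion 1 Θ).coeff 0 = 1 ∧
      ∀ m : ℕ, 1 ≤ m → ∃ c : ℤ, (UpperHalfPlane.qExpansion 1 Θ).coeff m = 2 * (c : ℂ) := by
  have : NeZero p := ⟨(Fact.out : p.Prime).ne_zero⟩
  let Θ : ModularForm (CongruenceSubgroup.Gamma0 p) 2 := (isMF_thetaInf D).toModularForm
  have hper : (1 : ℝ) ∈ ((CongruenceSubgroup.Gamma0 p).map
      (Matrix.SpecialLinearGroup.mapGL ℝ)).strictPeriods := by simp
  have hsum : ∀ τ : ℍ, HasSum (fun m : ℕ =>
      (Nat.card {x : V // D.Q x = (m : ℤ)} : ℂ) • Function.Periodic.qParam 1 τ ^ m) (Θ τ) :=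
    fun τ => hasSum_thetaInf D τ
  have hcoeff := ModularFormClass.qExpansion_coeff_unique one_pos hper hsum
  refine ⟨Θ, ?_, fun m hm => ?_⟩
  · rw [← hcoeff 0, card_Q_zero D, Nat.cast_one]
  · obtain ⟨c, hc⟩ := even_card_Q D m hm
    refine ⟨c, ?_⟩
    rw [← hcoeff m, hc]
    push_cast
    ring

end Fermat.Agent.S16.Theta
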